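import Fermat.Agent.PIC.Global.PointsFamily
import Fermat.Prelude.Def_AlgebraicGeometry_RelPicardAlgEquivZeroCut
import Mathlib

/-!
# Algebraic equivalence to zero and the degree

A line bundle on the curve is fibrewise algebraically equivalent to zero exactly when it has
degree zero on every geometric fibre.
-/

set_option autoImplicit false

universe u

open CategoryTheory CategoryTheory.Limits AlgebraicGeometry NeronModelInfra
open AlgebraicGeometry.RelPicard
open scoped TensorProduct

namespace Fermat.PIC

noncomputable section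

variable {k : Type u} [Field k]

/-- The structure map of a field over itself is the identity. -/
lemma specStr_self (K : Type u) [Field K] : specStr (k := K) K = 𝟙 (Spec (CommRingCat.of K)) :=
  Spec.map_id _

/-- Structure maps compose along a tower of algebras. -/
lemma specStr_comp (K B : Type u) [CommRing K] [Algebra k K] [CommRing B]
    [Algebra k B] [Algebra K B] [IsScalarTower k K B] :
    Spec.map (CommRingCat.ofHom (algebraMap K B)) ≫ specStr (k := k) K = specStr (k := k) B := by
  rw [← Spec.map_comp, ← CommRingCat.ofHom_comp, ← IsScalarTower.algebraMap_eq]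

/-- Reassociated form of `baseChangeSnd_fst`. -/
lemma baseChangeSnd_fst_assoc {C T T' Z : Scheme.{u}} {c : C ⟶ Spec (CommRingCat.of k)}
    {t : T ⟶ Spec (CommRingCat.of k)} {t' : T' ⟶ Spec (CommRingCat.of k)} (s : SchemeHomOver t' t)
    (h : C ⟶ Z) : baseChangeSnd c s ≫ pullback.fst c t ≫ h = pullback.fst c t' ≫ h := by
  rw [← Category.assoc, baseChangeSnd_fst]

/-- Reassociated form of `baseChangeSnd_snd`. -/
lemma baseChangeSnd_snd_assoc {C T T' Z : Scheme.{u}} {c : C ⟶ Spec (CommRingCat.of k)}
    {t : T ⟶ Spec (CommRingCat.of k)} {t' : T' ⟶ Spec (CommRingCat.of k)} (s : SchemeHomOver t' t)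
    (h : T ⟶ Z) : baseChangeSnd c s ≫ pullback.snd c t ≫ h = pullback.snd c t' ≫ s.1 ≫ h := by
  rw [← Category.assoc, baseChangeSnd_snd, Category.assoc]

namespace CurveModel

variable {C : Scheme.{u}} {c : C ⟶ Spec (CommRingCat.of k)}
  {ε : SchemeHomOver (𝟙 (Spec (CommRingCat.of k))) c} (M : CurveModel c ε)

section Constant

variable [IsAlgClosed k] {T : Scheme.{u}} {t : T ⟶ Spec (CommRingCat.of k)}
  {L : (pullback c t).Modules} (hL : Scheme.Modules.IsInvertible L)

/-- The degree is constant on the field-valued points of an irreducible affine open. -/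
lemma exists_degree_on_affine [IsIntegral T] (V : T.Opens) (hV : IsAffineOpen V) [Nonempty V] :
    ∃ d : ℤ, ∀ (K : Type u) [Field K] [Algebra k K] (s : SchemeHomOver (specStr (k := k) K) t),
      Set.range s.1 ⊆ V → (M.datAt hL s).degree = d := by
  obtain ⟨_, hB⟩ := exists_algebra_specStr (k := k) Γ(T, V) (hV.fromSpec ≫ t)
  let j : SchemeHomOver (specStr (k := k) Γ(T, V)) t := ⟨hV.fromSpec, hB.symm⟩
  obtain ⟨f, hf⟩ := (M.datAt hL j).exists_χ_locallyConstant
  refine ⟨f ⊥ + M.G.genus - 1, fun K _ _ s hs ↦ ?_⟩
  have hs' : Set.range s.1 ⊆ Set.range hV.fromSpec := by rwa [hV.range_fromSpec]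
  let r := IsOpenImmersion.lift hV.fromSpec s.1 hs'
  have hr : r ≫ hV.fromSpec = s.1 := IsOpenImmersion.lift_fac _ _ hs'
  obtain ⟨φ, hφ⟩ := exists_specHom (B := Γ(T, V)) (B' := K) ⟨r, by
    rw [hB, ← Category.assoc, hr]; exact s.2⟩
  have hsj : postComp j (specHom φ) = s := by
    rw [← hφ]; exact Subtype.ext hr
  let := φ.toRingHom.toAlgebra
  have : IsScalarTower k Γ(T, V) K := IsScalarTower.of_algebraMap_eq fun x ↦ (φ.commutes x).symm
  have bc : Datum.BC (IsScalarTower.toAlgHom k Γ(T, V) K) (M.datAt hL j)
      (M.datAt hL (postComp j (specHom φ))) :=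
    (M.bcAt hL φ j).copy (AlgHom.ext fun _ ↦ rfl)
  have h := hf K _ bc
  rw [f.apply_eq_of_preconnectedSpace (fieldPoint Γ(T, V) K) ⊥,
    Datum.χ_eq_degree, hsj] at h
  omega

/-- **On an integral base the degree is the same at all field-valued points.** -/
theorem degree_datAt_eq [IsIntegral T] {K K' : Type u} [Field K] [Algebra k K] [Field K']
    [Algebra k K'] (s : SchemeHomOver (specStr (k := k) K) t)
    (s' : SchemeHomOver (specStr (k := k) K') t) :
    (M.datAt hL s).degree = (M.datAt hL s').degree := by
  obtain ⟨V, hV, hxV, -⟩ := exists_isAffineOpen_mem_and_subset (X := T) (U := ⊤)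
    (x := s.1 default) trivial
  obtain ⟨V', hV', hxV', -⟩ := exists_isAffineOpen_mem_and_subset (X := T) (U := ⊤)
    (x := s'.1 default) trivial
  have : Nonempty V := ⟨⟨_, hxV⟩⟩
  have : Nonempty V' := ⟨⟨_, hxV'⟩⟩
  obtain ⟨q, hqV, hqV'⟩ :=
    nonempty_preirreducible_inter V.isOpen V'.isOpen ⟨_, hxV⟩ ⟨_, hxV'⟩
  obtain ⟨_, hq⟩ : ∃ _ : Algebra k (T.residueField q),
      specStr (k := k) (T.residueField q) = T.fromSpecResidueField q ≫ t :=
    exists_algebra_specStr _ _
  let sq : SchemeHomOver (specStr (k := k) (T.residueField q)) t :=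
    ⟨T.fromSpecResidueField q, hq.symm⟩
  obtain ⟨d, hd⟩ := M.exists_degree_on_affine hL V hV
  obtain ⟨d', hd'⟩ := M.exists_degree_on_affine hL V' hV'
  have hrange : ∀ {K : Type u} [Field K] (f : Spec (CommRingCat.of K) ⟶ T) (W : T.Opens),
      f default ∈ W → Set.range f ⊆ (W : Set T) := fun f W h ↦ by
    rintro _ ⟨z, rfl⟩
    rwa [Subsingleton.elim z default]
  have hrq : Set.range sq.1 = {q} := Scheme.range_fromSpecResidueField q
  rw [hd K s (hrange s.1 V hxV), hd' K' s' (hrange s'.1 V' hxV'),
    ← hd (T.residueField q) sq (hrq.trans_subset (Set.singleton_subset_iff.mpr hqV)),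
    hd' (T.residueField q) sq (hrq.trans_subset (Set.singleton_subset_iff.mpr hqV'))]

end Constant

variable [IsAlgClosed k] {K : Type u} [Field K] [IsAlgClosed K] [Algebra k K]
  {L : (pullback c (specStr (k := k) K)).Modules} (hL : Scheme.Modules.IsInvertible L)

include M hL in
omit [IsAlgClosed K] in
/-- Algebraic equivalence to zero on a fibre gives degree zero. -/
theorem degree_eq_zero_of_isAlgEquivZero
    (h : IsAlgEquivZero (pullback.snd c (specStr (k := k) K)) L) :
    (M.datOf K L hL).degree = 0 := by
  obtain ⟨T', hT, _, _, M', hM', t₀, t₁, ⟨e₀⟩, ⟨e₁⟩⟩ := h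
  have : IsIntegral T' := GeometricallyIntegral.isIntegral_of_subsingleton hT
  let t' := hT ≫ specStr (k := k) K
  let f : pullback c t' ⟶ pullback (pullback.snd c (specStr (k := k) K)) hT :=
    pullback.lift (pullback.lift (pullback.fst c t') (pullback.snd c t' ≫ hT)
      (by rw [Category.assoc]; exact pullback.condition)) (pullback.snd c t')
        (pullback.lift_snd _ _ _)
  let j : pullback c (specStr (k := k) K) ⟶ pullback (pullback.snd c (specStr (k := k) K))
      (𝟙 (Spec (CommRingCat.of K))) :=
    pullback.lift (𝟙 _) (pullback.snd c (specStr (k := k) K)) (by simp)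
  let pt (τ : SchemeHomOver (𝟙 (Spec (CommRingCat.of K))) hT) :
      SchemeHomOver (specStr (k := k) K) t' :=
    ⟨τ.1, by rw [← Category.assoc, τ.2, Category.id_comp]⟩
  have hsq : ∀ τ, baseChangeSnd c (pt τ) ≫ f = j ≫
      baseChangeSnd (pullback.snd c (specStr (k := k) K)) τ := by
    intro τ
    refine pullback.hom_ext ?_ ?_
    · refine pullback.hom_ext ?_ ?_
      · simp only [f, j, Category.assoc, baseChangeSnd_fst]
        rw [pullback.lift_fst_assoc, pullback.lift_fst, baseChangeSnd_fst, pullback.lift_fst_assoc]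
        simp
      · simp only [f, j, Category.assoc, baseChangeSnd_fst_assoc]
        rw [pullback.lift_fst_assoc, pullback.lift_snd, baseChangeSnd_snd_assoc,
          pullback.lift_fst_assoc]
        simp [pt, τ.2]
    · simp only [f, j, Category.assoc, baseChangeSnd_snd]
      rw [pullback.lift_snd, baseChangeSnd_snd, pullback.lift_snd_assoc]
  -- the member of the family at `τ` has the datum of the sheaf it is isomorphic to
  have key : ∀ (τ : SchemeHomOver (𝟙 (Spec (CommRingCat.of K))) hT)
      (L' : (pullback c (specStr (k := k) K)).Modules) (hL' : Scheme.Modules.IsInvertible L')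
      (_ : (Scheme.Modules.pullback
        (baseChangeSnd (pullback.snd c (specStr (k := k) K)) τ)).obj M' ≅
        (Scheme.Modules.pullback (pullback.fst (pullback.snd c (specStr (k := k) K))
          (𝟙 _))).obj L'),
      (M.datAt (L := (Scheme.Modules.pullback f).obj M') (hM'.pullback f) (pt τ)).degree =
        (M.datOf K L' hL').degree := by
    intro τ L' hL' e
    refine Datum.Equiv.degree_eq (M.datOfIso K ?_)
    exact (Scheme.Modules.pullbackComp _ _).app M' ≪≫
      (Scheme.Modules.pullbackCongr (hsq τ)).app M' ≪≫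
      ((Scheme.Modules.pullbackComp _ _).app M').symm ≪≫
      (Scheme.Modules.pullback j).mapIso e ≪≫
      (Scheme.Modules.pullbackComp _ _).app L' ≪≫
      (Scheme.Modules.pullbackCongr (pullback.lift_fst _ _ _)).app L' ≪≫
      (Scheme.Modules.pullbackId _).app L'
  -- the degree is constant on the integral base, and zero at `t₀`
  rw [← key t₁ L hL e₁, M.degree_datAt_eq (hM'.pullback f) (pt t₁) (pt t₀),
    key t₀ (unitMod _) (Scheme.Modules.isInvertible_unit _)
      (e₀ ≪≫ (Scheme.Modules.pullbackUnitIso _).symm),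
    ← (M.datOfUnit K).degree_eq, Datum.degree_trivial]

include M hL in
/-- Degree zero on a fibre gives algebraic equivalence to zero. -/
theorem isAlgEquivZero_of_degree_eq_zero (h : (M.datOf K L hL).degree = 0) :
    IsAlgEquivZero (pullback.snd c (specStr (k := k) K)) L := by
  obtain ⟨n, hn⟩ := Datum.exists_pos_bound M.G
  obtain ⟨σ, ⟨eσ⟩⟩ := hn K _ h n le_rfl
  obtain ⟨τ, ⟨eτ⟩⟩ := hn K _ (Datum.degree_trivial (G := M.G) (K := K)) n le_rfl
  obtain ⟨eσ'⟩ := CurveCharts.nonempty_equiv_pointsBundle _ σ eσ
  obtain ⟨eτ'⟩ := CurveCharts.nonempty_equiv_pointsBundle _ τ eτ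
  obtain ⟨φ, ⟨eφ⟩⟩ := M.exists_datAt_pointsMod n _ σ
  obtain ⟨ψ, ⟨eψ⟩⟩ := M.exists_datAt_pointsMod n _ τ
  obtain ⟨θ, -, -, -⟩ := M.exists_iso_of_equiv K _ hL (eφ.trans eσ'.symm)
  obtain ⟨η, -, -, -⟩ := M.exists_iso_of_equiv K _ (Scheme.Modules.isInvertible_unit _)
    ((eψ.trans eτ'.symm).trans (M.datOfUnit K))
  -- the family of bundles of `n · deg` points joins the trivial bundle to `L`
  let P := M.G.pointsAlg (n * M.G.deg)
  let BK := K ⊗[k] P.R
  have : IsDomain BK := isDomain_tensor (k := k) (A := K) (R := P.R)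
  let hT := specStr (k := K) BK
  let f : pullback (pullback.snd c (specStr (k := k) K)) hT ⟶ pullback c (specStr (k := k) BK) :=
    pullback.lift (pullback.fst (pullback.snd c (specStr (k := k) K)) hT ≫ pullback.fst c _)
      (pullback.snd (pullback.snd c (specStr (k := k) K)) hT) (by
      rw [Category.assoc, pullback.condition, ← Category.assoc,
        show pullback.fst (pullback.snd c (specStr (k := k) K)) hT ≫
          pullback.snd c (specStr (k := k) K) =
          pullback.snd (pullback.snd c (specStr (k := k) K)) hT ≫ hT from pullback.condition,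
          Category.assoc, specStr_comp])
  let incl : P.R →ₐ[k] BK := Algebra.TensorProduct.includeRight
  let g : pullback (pullback.snd c (specStr (k := k) K)) hT ⟶ pullback c (specStr (k := k) P.R) :=
    f ≫ baseChangeSnd c (specHom incl)
  let pt (χ : P.R →ₐ[k] K) : SchemeHomOver (𝟙 (Spec (CommRingCat.of K))) hT :=
    ⟨(specHom (k := K) (Algebra.TensorProduct.lift (AlgHom.id K K) χ fun _ _ ↦ Commute.all _ _)).1,
      (specHom _).2.trans (specStr_self K)⟩
  have hsq : ∀ χ, baseChangeSnd (pullback.snd c (specStr (k := k) K)) (pt χ) ≫ g =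
      pullback.fst (pullback.snd c (specStr (k := k) K)) (𝟙 (Spec (CommRingCat.of K))) ≫
        baseChangeSnd c (specHom χ) := by
    intro χ
    refine pullback.hom_ext ?_ ?_
    · simp only [g, f, Category.assoc, baseChangeSnd_fst]
      rw [pullback.lift_fst, baseChangeSnd_fst_assoc]
    · have hcond : pullback.fst (pullback.snd c (specStr (k := k) K))
          (𝟙 (Spec (CommRingCat.of K))) ≫ (pullback.snd c (specStr (k := k) K)) =
            pullback.snd (pullback.snd c (specStr (k := k) K)) (𝟙 _) :=
        pullback.condition.trans (Category.comp_id _)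
      have hring : (pt χ).1 ≫ (specHom incl).1 = (specHom χ).1 := by
        change Spec.map _ ≫ Spec.map _ = Spec.map _
        rw [← Spec.map_comp, ← CommRingCat.ofHom_comp]
        congr 2
        refine RingHom.ext fun z ↦ ?_
        change Algebra.TensorProduct.lift (AlgHom.id K K) χ (fun _ _ ↦ Commute.all _ _)
          ((1 : K) ⊗ₜ[k] z) = χ z
        rw [Algebra.TensorProduct.lift_tmul, map_one, one_mul]
      simp only [g, f, Category.assoc, baseChangeSnd_snd, baseChangeSnd_snd_assoc,
        pullback.lift_snd_assoc]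
      rw [reassoc_of% hcond, hring]
  have key : ∀ (χ : P.R →ₐ[k] K) (L' : (pullback c (specStr (k := k) K)).Modules)
      (_ : modAt (M.pointsMod n _) (specHom χ) ≅ L'),
      Nonempty ((Scheme.Modules.pullback (baseChangeSnd (pullback.snd c (specStr (k := k) K))
        (pt χ))).obj ((Scheme.Modules.pullback g).obj (M.pointsMod n _)) ≅
          (Scheme.Modules.pullback (pullback.fst (pullback.snd c (specStr (k := k) K))
            (𝟙 _))).obj L') := fun χ L' e ↦
    ⟨(Scheme.Modules.pullbackComp _ _).app _ ≪≫
      (Scheme.Modules.pullbackCongr (hsq χ)).app _ ≪≫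
      ((Scheme.Modules.pullbackComp _ _).app _).symm ≪≫
      (Scheme.Modules.pullback _).mapIso e⟩
  obtain ⟨i₀⟩ := key ψ _ η
  obtain ⟨i₁⟩ := key φ L θ
  exact ⟨Spec (CommRingCat.of BK), hT, locallyOfFiniteType_specStr BK,
    geometricallyIntegral_specStr BK, (Scheme.Modules.pullback g).obj (M.pointsMod n _),
    (M.isInvertible_pointsMod n _).pullback g, pt ψ, pt φ,
    ⟨i₀ ≪≫ Scheme.Modules.pullbackUnitIso _⟩, ⟨i₁⟩⟩

include hL in
/-- Algebraic equivalence to zero on a fibre is degree zero. -/
theorem isAlgEquivZero_iff_degree_eq_zero :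
    IsAlgEquivZero (pullback.snd c (specStr (k := k) K)) L ↔ (M.datOf K L hL).degree = 0 :=
  ⟨M.degree_eq_zero_of_isAlgEquivZero hL, M.isAlgEquivZero_of_degree_eq_zero hL⟩

variable {T : Scheme.{u}} {t : T ⟶ Spec (CommRingCat.of k)} {N : (pullback c t).Modules}
  (hN : Scheme.Modules.IsInvertible N)

include hN in
/-- The fibre over a geometric point is algebraically equivalent to zero iff the datum at the point
has degree zero. -/
theorem isAlgEquivZero_fibreAt_iff (s : SchemeHomOver (specStr (k := k) K) t) :
    IsAlgEquivZero (fibreAt c t s.1)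
        ((Scheme.Modules.pullback (pullback.fst (pullback.snd c t) s.1)).obj N) ↔
      (M.datAt hN s).degree = 0 := by
  refine Iff.trans ⟨fun h ↦ ?_, fun h ↦ ?_⟩
    (M.isAlgEquivZero_iff_degree_eq_zero (L := modAt N s) (hN.pullback _))
  · let e : pullback c (specStr (k := k) K) ⟶ pullback (pullback.snd c t) s.1 :=
      pullback.lift (baseChangeSnd c s) (pullback.snd _ _) (baseChangeSnd_snd c s)
    refine (h.pullback e (pullback.lift_snd _ _ _)).of_iso ?_
    exact (Scheme.Modules.pullbackComp _ _).app N ≪≫
      (Scheme.Modules.pullbackCongr (pullback.lift_fst _ _ _)).app N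
  · let e : pullback (pullback.snd c t) s.1 ⟶ pullback c (specStr (k := k) K) :=
      pullback.lift (pullback.fst _ _ ≫ pullback.fst c t) (pullback.snd _ _) (by
        rw [Category.assoc, pullback.condition, ← Category.assoc,
          pullback.condition (f := pullback.snd c t), Category.assoc, s.2])
    have hfst : e ≫ baseChangeSnd c s = pullback.fst (pullback.snd c t) s.1 := by
      refine pullback.hom_ext ?_ ?_
      · simp only [e, Category.assoc, baseChangeSnd_fst]
        rw [pullback.lift_fst]
      · simp only [e, Category.assoc, baseChangeSnd_snd]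
        rw [pullback.lift_snd_assoc, pullback.condition]
    refine (h.pullback e (pullback.lift_snd _ _ _)).of_iso ?_
    exact (Scheme.Modules.pullbackComp _ _).app N ≪≫
      (Scheme.Modules.pullbackCongr hfst).app N

omit [IsAlgClosed K] in
/-- **Fibrewise algebraic equivalence to zero is degree zero on every geometric fibre.** -/
theorem fibrewiseAlgEquivZero_iff (R : RigidifiedLineBundle c ε t) :
    FibrewiseAlgEquivZero R ↔ M.DegZero R.isInvertible := by
  constructor
  · intro h K _ _ _ s
    exact (M.isAlgEquivZero_fibreAt_iff R.isInvertible s).mp (h K s.1)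
  · intro h K _ _ s
    obtain ⟨_, hs⟩ := exists_algebra_specStr (k := k) K (s ≫ t)
    exact (M.isAlgEquivZero_fibreAt_iff R.isInvertible ⟨s, hs.symm⟩).mpr (h K ⟨s, hs.symm⟩)

end CurveModel

end

end Fermat.PIC
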