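import Fermat.Agent.PIC.Bridge.BCOf
import Fermat.Agent.PIC.Ops.BCBasic
import Fermat.Prelude.Def_AlgebraicGeometry_RelativePicardFunctor
import Mathlib

/-!
# Data of a line bundle over an arbitrary base, and the degree zero Picard functor

The data of a line bundle on the curve over an arbitrary base at affine points of the base, and
the vocabulary for the representability of the degree zero part of the Picard functor.
-/

set_option autoImplicit false

universe u

open CategoryTheory CategoryTheory.Limits AlgebraicGeometry NeronModelInfra
open AlgebraicGeometry.RelPicard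

namespace Fermat.PIC

noncomputable section

variable {k : Type u} [Field k]

namespace Datum

variable {G : CurveCharts k} {B : Type u} [CommRing B] [Algebra k B]

/-- The restriction of the line bundle to the base point section is trivial. -/
def EpsTrivial (D : Datum G B) : Prop :=
  ∃ (p : D.P1) (φ : Module.Dual (G.R1 B) D.P1), G.εB B (φ p) = 1

/-- Triviality at the base point respects isomorphism. -/
lemma Equiv.epsTrivial {D D' : Datum G B} (e : Equiv D D') (h : D.EpsTrivial) : D'.EpsTrivial := by
  obtain ⟨p, φ, hp⟩ := h
  exact ⟨e.e1 p, φ ∘ₗ e.e1.symm.toLinearMap, by simpa using hp⟩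

/-- Triviality at the base point is unchanged by twisting. -/
lemma epsTrivial_twist {D : Datum G B} (h : D.EpsTrivial) (n : ℤ) : (D.twist n).EpsTrivial := h

end Datum

namespace CurveModel

variable {C : Scheme.{u}} {c : C ⟶ Spec (CommRingCat.of k)}
  {ε : SchemeHomOver (𝟙 (Spec (CommRingCat.of k))) c} (M : CurveModel c ε)
  {T T' : Scheme.{u}} {t : T ⟶ Spec (CommRingCat.of k)} {t' : T' ⟶ Spec (CommRingCat.of k)}
  {L L' : (pullback c t).Modules} {B B' : Type u} [CommRing B] [Algebra k B] [CommRing B']
  [Algebra k B']

/-- The pullback of a sheaf of modules along a point of the base. -/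
abbrev modAt (L : (pullback c t).Modules) {T' : Scheme.{u}} {t' : T' ⟶ Spec (CommRingCat.of k)}
    (s : SchemeHomOver t' t) : (pullback c t').Modules :=
  (Scheme.Modules.pullback (baseChangeSnd c s)).obj L

/-- Pulling back twice. -/
def modAtComp (L : (pullback c t).Modules) {T'' : Scheme.{u}} {t'' : T'' ⟶ Spec (CommRingCat.of k)}
    (s : SchemeHomOver t' t) (r : SchemeHomOver t'' t') :
    modAt (modAt L s) r ≅ modAt L (postComp s r) :=
  (Scheme.Modules.pullbackComp _ _).app L ≪≫
    (Scheme.Modules.pullbackCongr (baseChangeSnd_comp c s r)).app L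

/-- The datum of a line bundle at an affine point of the base. -/
def datAt (hL : Scheme.Modules.IsInvertible L) (s : SchemeHomOver (specStr (k := k) B) t) :
    Datum M.G B :=
  M.datOf B (modAt L s) (hL.pullback _)

/-- Isomorphic line bundles have isomorphic data. -/
def datAtIso (hL : Scheme.Modules.IsInvertible L) (hL' : Scheme.Modules.IsInvertible L')
    (e : L ≅ L') (s : SchemeHomOver (specStr (k := k) B) t) :
    Datum.Equiv (M.datAt hL s) (M.datAt hL' s) :=
  M.datOfIso B ((Scheme.Modules.pullback _).mapIso e)

/-- The data at equal points. -/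
def datAtCongr (hL : Scheme.Modules.IsInvertible L) {s s' : SchemeHomOver (specStr (k := k) B) t}
    (h : s = s') : Datum.Equiv (M.datAt hL s) (M.datAt hL s') :=
  M.datOfIso B ((Scheme.Modules.pullbackCongr (congrArg (baseChangeSnd c) h)).app L)

/-- The datum of a pullback at a point is the datum at the composed point. -/
def datAtModAt (hL : Scheme.Modules.IsInvertible L) (s : SchemeHomOver t' t)
    (r : SchemeHomOver (specStr (k := k) B) t') :
    Datum.Equiv (M.datAt (L := modAt L s) (hL.pullback _) r) (M.datAt hL (postComp s r)) :=
  M.datOfIso B (modAtComp L s r)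

/-- The datum at a point over another is the base change. -/
def bcAt (hL : Scheme.Modules.IsInvertible L) (φ : B →ₐ[k] B')
    (s : SchemeHomOver (specStr (k := k) B) t) :
    Datum.BC φ (M.datAt hL s) (M.datAt hL (postComp s (specHom φ))) :=
  (M.bcOf (L := modAt L s) (hL.pullback _) φ).congr (Datum.Equiv.refl _)
    (M.datOfIso B' (modAtComp L s (specHom φ)))

/-- The line bundle has degree zero on every geometric fibre. -/
def DegZero (hL : Scheme.Modules.IsInvertible L) : Prop :=
  ∀ (K : Type u) [Field K] [IsAlgClosed K] [Algebra k K]
    (s : SchemeHomOver (specStr (k := k) K) t), (M.datAt hL s).degree = 0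

end CurveModel

end

end Fermat.PIC
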