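import Fermat.Agent.PIC.Chart.BasisSmooth
import Fermat.Agent.PIC.Global.Defs
import Fermat.Agent.PIC.Ops.Pos
import Fermat.Agent.PIC.Ops.Point
import Mathlib

/-!
# The universal line bundles over the chart rings of the Jacobian

`ChartIdx` indexes the charts, and `univBundle` is the universal bundle over the smooth chart
ring (`smooth_ring`).
-/

set_option autoImplicit false

universe u

open Polynomial

namespace Fermat.PIC

noncomputable section

variable {k : Type u} [Field k] {G : CurveCharts k} {B B' : Type u} [CommRing B] [Algebra k B]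
  [CommRing B'] [Algebra k B']

namespace Div

/-- The divisor does not meet the zero locus of the inverse coordinate. -/
def Away (E : Div G B) : Prop := ∃ q : G.R1 B, IsCoprime (G.Y1 B) q ∧ q ∈ E.I1

/-- The empty divisor is away from the poles. -/
lemma away_one : (1 : Div G B).Away := ⟨1, isCoprime_one_right, Submodule.mem_top⟩

/-- Being away from the poles is closed under sums of divisors. -/
lemma Away.mul {E F : Div G B} (hE : E.Away) (hF : F.Away) : (E * F).Away := by
  obtain ⟨p, hp, hpE⟩ := hE
  obtain ⟨q, hq, hqF⟩ := hF
  exact ⟨p * q, hp.mul_right hq, Ideal.mul_mem_mul hpE hqF⟩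

/-- A point of the first chart is away from the poles. -/
lemma away_point0 (σ : G.A0 →ₐ[k] B) : (point0 σ).Away :=
  haveI : Module.Finite B (G.R0 B ⧸ RingHom.ker (G.ev0 σ)) := finite_quotient_evPt σ
  haveI : Module.Projective B (G.R0 B ⧸ RingHom.ker (G.ev0 σ)) := projective_quotient_evPt σ
  exists_coprime_mem_ofFinite0 (RingHom.ker (G.ev0 σ))

/-- Finite sums of divisors away from the poles are away from the poles. -/
lemma away_prod {ι : Type*} (s : Finset ι) (E : ι → Div G B) (h : ∀ i ∈ s, (E i).Away) :
    (∏ i ∈ s, E i).Away := by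
  classical
  induction s using Finset.induction with
  | empty => simpa using away_one
  | insert i s hi ih =>
    rw [Finset.prod_insert hi]
    exact (h i (Finset.mem_insert_self i s)).mul (ih fun j hj ↦ h j (Finset.mem_insert_of_mem hj))

/-- Being away from the poles is stable under base change. -/
lemma Away.map {E : Div G B} (hE : E.Away) (φ : B →ₐ[k] B') : (E.map φ).Away := by
  obtain ⟨p, hp, hpE⟩ := hE
  refine ⟨G.bc1 φ p, ?_, Ideal.mem_map_of_mem _ hpE⟩
  rw [← G.bc1_Y1 φ]
  exact hp.map (G.bc1 φ).toRingHom

/-- Base change commutes with finite sums of divisors. -/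
lemma map_prod {ι : Type*} (φ : B →ₐ[k] B') (s : Finset ι) (E : ι → Div G B) :
    (∏ i ∈ s, E i).map φ = ∏ i ∈ s, (E i).map φ := by
  classical
  induction s using Finset.induction with
  | empty => simpa using Div.map_one φ
  | insert i s hi ih => rw [Finset.prod_insert hi, Div.map_mul, ih, Finset.prod_insert hi]

/-- Away from the zero locus of the inverse coordinate, the line bundle is trivial at the base
point. -/
theorem Away.epsTrivial {E : Div G B} (hE : E.Away) : (Datum.pos E).EpsTrivial := by
  obtain ⟨q, ⟨a, b, hab⟩, hqE⟩ := hE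
  have hmem : b * q ∈ smulTop E.I1 (G.R1 B) := by
    have := Submodule.smul_mem_smul (N := (⊤ : Submodule (G.R1 B) (G.R1 B)))
      (E.I1.mul_mem_left b hqE) (n := (1 : G.R1 B)) trivial
    simpa using this
  refine ⟨(smulTop E.I1 (G.R1 B)).subtype,
    LinearMap.applyₗ (R := G.R1 B) (M₂ := G.R1 B) (⟨b * q, hmem⟩ : smulTop E.I1 (G.R1 B)), ?_⟩
  change G.εB B (b * q) = 1
  have h := congrArg (G.εB B) hab
  rw [map_add, _root_.map_mul, G.εB_Y1, mul_zero, zero_add, _root_.map_one] at h
  exact h

end Div

/-- An index of a chart of the Jacobian: points to subtract and a basis of the quotient. -/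
@[nolint unusedArguments]
structure ChartIdx (G : CurveCharts k) (e n : ℕ) where
  /-- The points to subtract. -/
  pts : Fin e → (G.A0 →ₐ[k] k)
  /-- Elements whose images are a basis of the functions on each divisor of the chart. -/
  b : Fin G.genus → G.A0

namespace ChartIdx

variable {e n : ℕ} (i : ChartIdx G e n)

/-- The fixed divisor of the chart. -/
def fixed (B : Type u) [CommRing B] [Algebra k B] : Div G B :=
  (∏ j, Div.point0 (i.pts j)).map (Algebra.ofId k B)

/-- The fixed divisor commutes with base change. -/
lemma fixed_map (φ : B →ₐ[k] B') : (i.fixed B).map φ = i.fixed B' := by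
  rw [fixed, Div.map_map, show φ.comp (Algebra.ofId k B) = Algebra.ofId k B' from
    Subsingleton.elim _ _, fixed]

/-- The fixed divisor is away from the poles. -/
lemma away_fixed : (i.fixed B).Away :=
  (Div.away_prod _ _ fun _ _ ↦ Div.away_point0 _).map _

/-- The divisor cut out by coordinates. -/
def div (c : BasisCoord k i.b B) : Div G B :=
  haveI : Module.Finite B (G.R0 B ⧸ c.ideal) := c.isBasisIdeal.finite
  haveI : Module.Free B (G.R0 B ⧸ c.ideal) := c.isBasisIdeal.free
  Div.ofFinite0 c.ideal

/-- The divisor of coordinates is cut out on the first chart by their ideal. -/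
lemma div_I0 (c : BasisCoord k i.b B) : (i.div c).I0 = c.ideal := rfl

/-- The divisor of coordinates is away from the poles. -/
lemma away_div (c : BasisCoord k i.b B) : (i.div c).Away :=
  haveI : Module.Finite B (G.R0 B ⧸ c.ideal) := c.isBasisIdeal.finite
  haveI : Module.Free B (G.R0 B ⧸ c.ideal) := c.isBasisIdeal.free
  Div.exists_coprime_mem_ofFinite0 c.ideal

/-- The divisor of coordinates commutes with base change. -/
lemma div_map (φ : B →ₐ[k] B') (c : BasisCoord k i.b B) : (i.div c).map φ = i.div (c.map φ) :=
  haveI : Module.Finite B (G.R0 B ⧸ c.ideal) := c.isBasisIdeal.finite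
  haveI : Module.Free B (G.R0 B ⧸ c.ideal) := c.isBasisIdeal.free
  haveI : Module.Finite B' (G.R0 B' ⧸ (c.map φ).ideal) := (c.map φ).isBasisIdeal.finite
  haveI : Module.Free B' (G.R0 B' ⧸ (c.map φ).ideal) := (c.map φ).isBasisIdeal.free
  Div.map_ofFinite0 φ c.ideal (c.map φ).ideal (c.ideal_map φ)

/-- The line bundle of a point of the chart. -/
def bundle (c : BasisCoord k i.b B) : Datum G B :=
  (Datum.pos (i.div c * i.fixed B)).twist (-(n : ℤ))

/-- The bundles of the chart are trivial at the base point. -/
lemma epsTrivial_bundle (c : BasisCoord k i.b B) : (i.bundle c).EpsTrivial :=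
  Datum.epsTrivial_twist ((i.away_div c).mul i.away_fixed).epsTrivial _

/-- The bundles of the chart are compatible with base change. -/
def bundleBC (φ : B →ₐ[k] B') (c : BasisCoord k i.b B) :
    Datum.BC φ (i.bundle c) (i.bundle (c.map φ)) :=
  (((Datum.BC.pos φ (i.div c * i.fixed B)).congr (Datum.Equiv.refl _)
    (Datum.posCongr (by rw [Div.map_mul, i.div_map, i.fixed_map]))).twist (-(n : ℤ)))

/-- The ring of the chart. -/
abbrev Ring : Type u := BasisRing k i.b

/-- The universal line bundle over the chart ring. -/
def univBundle : Datum G i.Ring := i.bundle (univCoord k i.b)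

/-- The universal bundle specialises to the bundle of a point. -/
def univBundleBC (c : BasisCoord k i.b B) : Datum.BC c.toHom i.univBundle (i.bundle c) :=
  (i.bundleBC c.toHom (univCoord k i.b)).congr (Datum.Equiv.refl _)
    (by rw [c.map_toHom]; exact Datum.Equiv.refl _)

/-- The chart ring is finitely presented over the ground field. -/
instance finitePresentation_ring : Algebra.FinitePresentation k i.Ring :=
  have : Algebra.FiniteType k G.A0 := by
    let := (Polynomial.aeval G.x : k[X] →ₐ[k] G.A0).toRingHom.toAlgebra
    have : IsScalarTower k k[X] G.A0 :=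
      IsScalarTower.of_algebraMap_eq fun r ↦ ((Polynomial.aeval G.x).commutes r).symm
    have : Module.Finite k[X] G.A0 := G.finite0
    exact Algebra.FiniteType.trans (inferInstance : Algebra.FiniteType k k[X]) inferInstance
  finitePresentation_basisRing

/-- The chart rings are smooth. -/
theorem smooth_ring : Algebra.Smooth k i.Ring := by
  refine ⟨formallySmooth_basisRing i.b fun C _ _ I hI ↦ ?_, inferInstance⟩
  have : Module.Finite C (G.R0 C ⧸ I) := hI.finite
  have : Module.Free C (G.R0 C ⧸ I) := hI.free
  have : Module.Invertible (G.R0 C) I := (Div.ofFinite0 I).invertible0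
  exact ⟨inferInstance, inferInstance⟩

end ChartIdx

end

end Fermat.PIC
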