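import Fermat.Agent.PIC.Chart.Fibres
import Fermat.Agent.PIC.Global.Universal
import Mathlib

/-!
# The open part of a chart ring over which the divisor has no first cohomology

`locus` is this part; `d_surjective_iff` tests it on coordinates.
-/

set_option autoImplicit false

universe u

open AlgebraicGeometry

namespace Fermat.PIC

noncomputable section

variable {k : Type u} [Field k] {G : CurveCharts k} {B B' : Type u} [CommRing B] [Algebra k B]
  [CommRing B'] [Algebra k B']

/-- The point of the base under a field, for a given map. -/
def homPoint {K : Type u} [Field K] [Algebra k K] (φ : B →ₐ[k] K) : PrimeSpectrum B :=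
  (⊥ : PrimeSpectrum K).comap φ.toRingHom

/-- The point under a composite is the preimage of the point. -/
lemma homPoint_comp {K : Type u} [Field K] [Algebra k K] (ψ : B' →ₐ[k] B) (φ : B →ₐ[k] K) :
    homPoint (φ.comp ψ) = (homPoint φ).comap ψ.toRingHom := rfl

/-- The point under the residue field of a prime is that prime. -/
lemma homPoint_residueField (p : PrimeSpectrum B) :
    homPoint (IsScalarTower.toAlgHom k B p.asIdeal.ResidueField) = p :=
  fieldPoint_residueField p

namespace Datum

/-- The first cohomology vanishes at a point with values in a field iff the point is off the support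
of that of the datum. -/
lemma BC.h1_eq_zero_iff_homPoint {K : Type u} [Field K] [Algebra k K] {φ : B →ₐ[k] K}
    {D : Datum G B} {D' : Datum G K} (bc : BC φ D D') :
    D'.h1 = 0 ↔ homPoint φ ∉ Module.support B D.H1 := by
  let := φ.toRingHom.toAlgebra
  have : IsScalarTower k B K := IsScalarTower.of_algebraMap_eq fun x ↦ (φ.commutes x).symm
  exact (bc.copy (ψ := IsScalarTower.toAlgHom k B K) (AlgHom.ext fun _ ↦ rfl)).h1_eq_zero_iff

/-- Surjectivity of the differential of a base change is a condition on the image. -/
lemma BC.d_surjective_iff_forall {φ : B →ₐ[k] B'} {D : Datum G B} {D' : Datum G B'}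
    (bc : BC φ D D') :
    Function.Surjective D'.d ↔
      ∀ p : PrimeSpectrum B', p.comap φ.toRingHom ∉ Module.support B D.H1 := by
  rw [D'.d_surjective_iff]
  refine forall_congr' fun p ↦ ?_
  rw [(bc.comp (D'.fibreBC p)).h1_eq_zero_iff_homPoint, homPoint_comp, homPoint_residueField]

end Datum

namespace ChartIdx

variable {e n : ℕ} (i : ChartIdx G e n)

/-- The divisor line bundles of a chart are compatible with base change. -/
def posDivBC (φ : B →ₐ[k] B') (c : BasisCoord k i.b B) :
    Datum.BC φ (Datum.pos (i.div c)) (Datum.pos (i.div (c.map φ))) :=
  (Datum.BC.pos φ (i.div c)).congr (Datum.Equiv.refl _) (Datum.posCongr (i.div_map φ c))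

/-- The universal divisor bundle specialises to that of a point. -/
def univPosBC (c : BasisCoord k i.b B) :
    Datum.BC c.toHom (Datum.pos (i.div (univCoord k i.b))) (Datum.pos (i.div c)) :=
  (i.posDivBC c.toHom (univCoord k i.b)).congr (Datum.Equiv.refl _)
    (by rw [c.map_toHom]; exact Datum.Equiv.refl _)

/-- The points of the chart ring where the divisor has no first cohomology. -/
def locus : (Spec (CommRingCat.of i.Ring)).Opens :=
  ⟨(Module.support i.Ring (Datum.pos (i.div (univCoord k i.b))).H1)ᶜ,
    Datum.isOpen_compl_support_H1 _⟩

/-- The divisor of coordinates has no first cohomology iff the coordinates land in the locus. -/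
lemma d_surjective_iff (c : BasisCoord k i.b B) :
    Function.Surjective (Datum.pos (i.div c)).d ↔
      ∀ p : PrimeSpectrum B, p.comap c.toHom.toRingHom ∈ i.locus :=
  (i.univPosBC c).d_surjective_iff_forall

end ChartIdx

end

end Fermat.PIC
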