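import Fermat.Agent.PIC.Bridge.SheafOf
import Fermat.Agent.PIC.Global.ChartOpen
import Mathlib

/-!
# The chart schemes of the Jacobian and their universal line bundles

`isInvertible_chartMod`; `ChartSmooth` gives smoothness, `Classify` what the charts classify.
-/

set_option autoImplicit false

universe u

open CategoryTheory CategoryTheory.Limits AlgebraicGeometry NeronModelInfra
open AlgebraicGeometry.RelPicard

namespace Fermat.PIC

noncomputable section

variable {k : Type u} [Field k]

namespace ChartIdx

variable {G : CurveCharts k} {e n : ℕ} (i : ChartIdx G e n) {B B' : Type u} [CommRing B]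
  [Algebra k B] [CommRing B'] [Algebra k B']

/-- The chart scheme. -/
abbrev scheme : Scheme.{u} := i.locus.toScheme

/-- The structure map of the chart scheme. -/
def str : i.scheme ⟶ Spec (CommRingCat.of k) := i.locus.ι ≫ specStr (k := k) i.Ring

/-- The inclusion of the chart scheme. -/
def incl : SchemeHomOver i.str (specStr (k := k) i.Ring) := ⟨i.locus.ι, rfl⟩

/-- The map of spectra of an algebra map sends a prime to its preimage. -/
lemma specHom_apply (φ : B →ₐ[k] B') (p : PrimeSpectrum B') :
    (specHom φ).1 p = p.comap φ.toRingHom := rfl

/-- Coordinates without first cohomology land in the chart scheme. -/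
lemma range_specHom_le (c : BasisCoord k i.b B) (hc : Function.Surjective (Datum.pos (i.div c)).d) :
    Set.range (specHom c.toHom).1 ⊆ Set.range i.locus.ι := by
  rintro _ ⟨p, rfl⟩
  rw [Scheme.Opens.range_ι, SetLike.mem_coe, specHom_apply]
  exact (i.d_surjective_iff c).mp hc p

/-- The point of the chart scheme of coordinates without first cohomology. -/
def toChart (c : BasisCoord k i.b B) (hc : Function.Surjective (Datum.pos (i.div c)).d) :
    SchemeHomOver (specStr (k := k) B) i.str :=
  ⟨IsOpenImmersion.lift i.locus.ι (specHom c.toHom).1 (i.range_specHom_le c hc), by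
    rw [str, IsOpenImmersion.lift_fac_assoc]
    exact (specHom c.toHom).2⟩

/-- In the chart ring, the point given by coordinates is their classifying map. -/
lemma postComp_incl_toChart (c : BasisCoord k i.b B)
    (hc : Function.Surjective (Datum.pos (i.div c)).d) :
    postComp i.incl (i.toChart c hc) = specHom c.toHom :=
  Subtype.ext (IsOpenImmersion.lift_fac _ _ _)

/-- Every affine point of the chart scheme comes from coordinates. -/
theorem exists_toChart (s : SchemeHomOver (specStr (k := k) B) i.str) :
    ∃ (c : BasisCoord k i.b B) (hc : Function.Surjective (Datum.pos (i.div c)).d),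
      i.toChart c hc = s := by
  obtain ⟨φ, hφ⟩ := exists_specHom (postComp i.incl s)
  have hc0 : ((univCoord k i.b).map φ).toHom = φ :=
    BasisCoord.toHom_unique (BasisCoord.map_toHom _)
  have key : specHom ((univCoord k i.b).map φ).toHom = postComp i.incl s := by rw [hc0, hφ]
  have hd : Function.Surjective (Datum.pos (i.div ((univCoord k i.b).map φ))).d := by
    rw [i.d_surjective_iff]
    intro p
    rw [← specHom_apply, key]
    exact (s.1 p).2
  refine ⟨_, hd, Subtype.ext ?_⟩
  refine (cancel_mono i.locus.ι).mp ?_
  exact congrArg Subtype.val ((i.postComp_incl_toChart _ hd).trans key)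

end ChartIdx

namespace CurveModel

variable {C : Scheme.{u}} {c : C ⟶ Spec (CommRingCat.of k)}
  {ε : SchemeHomOver (𝟙 (Spec (CommRingCat.of k))) c} (M : CurveModel c ε)
  {e n : ℕ} (i : ChartIdx M.G e n) {B : Type u} [CommRing B] [Algebra k B]

/-- The universal line bundle over the chart ring, as a sheaf. -/
def univMod : (pullback c (specStr (k := k) i.Ring)).Modules :=
  (M.exists_sheaf_of_datum i.univBundle).choose

/-- The universal sheaf over the chart ring is invertible. -/
lemma isInvertible_univMod : Scheme.Modules.IsInvertible (M.univMod i) :=
  (M.exists_sheaf_of_datum i.univBundle).choose_spec.choose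

/-- The datum of the universal line bundle. -/
def univModEquiv : Datum.Equiv (M.datOf i.Ring (M.univMod i)
    (M.isInvertible_univMod i)) i.univBundle :=
  (M.exists_sheaf_of_datum i.univBundle).choose_spec.choose_spec.some

/-- The datum of the universal line bundle at a point given by coordinates. -/
theorem nonempty_datAt_univMod (x : BasisCoord k i.b B) :
    Nonempty (Datum.Equiv (M.datAt (M.isInvertible_univMod i) (specHom x.toHom)) (i.bundle x)) :=
  Datum.BC.nonempty_equiv
    ((M.bcOf (M.isInvertible_univMod i) x.toHom).congr (M.univModEquiv i) (Datum.Equiv.refl _))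
    (i.univBundleBC x)

/-- The universal line bundle of the chart scheme. -/
def chartMod : (pullback c i.str).Modules := modAt (M.univMod i) i.incl

/-- The universal sheaf over the chart scheme is invertible. -/
lemma isInvertible_chartMod : Scheme.Modules.IsInvertible (M.chartMod i) :=
  (M.isInvertible_univMod i).pullback _

/-- The datum of the chart bundle at a point given by coordinates. -/
theorem nonempty_datAt_chartMod (x : BasisCoord k i.b B)
    (hx : Function.Surjective (Datum.pos (i.div x)).d) :
    Nonempty (Datum.Equiv (M.datAt (M.isInvertible_chartMod i) (i.toChart x hx)) (i.bundle x)) := by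
  obtain ⟨f⟩ := M.nonempty_datAt_univMod i x
  exact ⟨((M.datAtModAt (M.isInvertible_univMod i) i.incl (i.toChart x hx)).trans
    (M.datAtCongr (M.isInvertible_univMod i) (i.postComp_incl_toChart x hx))).trans f⟩

end CurveModel

end

end Fermat.PIC
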