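import Fermat.Agent.PIC.Global.ChartScheme
import Mathlib

/-!
# The chart schemes are smooth over the ground field

`ChartIdx.smooth_str`: the structure map of each chart scheme is smooth.
-/

set_option autoImplicit false

universe u

open CategoryTheory AlgebraicGeometry

namespace Fermat.PIC

variable {k : Type u} [Field k] {G : CurveCharts k} {e n : ℕ} (i : ChartIdx G e n)

/-- Each chart scheme is smooth over the ground field. -/
theorem ChartIdx.smooth_str : Smooth i.str := by
  have h : Smooth (specStr (k := k) i.Ring) := by
    rw [HasRingHomProperty.Spec_iff (P := @Smooth), CommRingCat.hom_ofHom,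
      RingHom.smooth_algebraMap]
    exact i.smooth_ring
  exact inferInstanceAs (Smooth (i.locus.ι ≫ specStr (k := k) i.Ring))

end Fermat.PIC
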