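import Fermat.Agent.PIC.Global.ChartOpen
import Fermat.Agent.PIC.Hilb.Bookkeeping
import Fermat.Agent.PIC.Hilb.Unique
import Fermat.Agent.PIC.Hilb.Boundary
import Fermat.Agent.PIC.Hilb.Values
import Fermat.Agent.PIC.Hilb.TrivialH1
import Mathlib

/-!
# The data classified by a chart of the Jacobian

`exists_equiv_bundle`, `coord_unique`, `exists_inChart_nhd`: a chart classifies the data without
first cohomology whose only section cuts out a subscheme with the given basis (`InChartN`).
`Charts` concludes.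
-/

set_option autoImplicit false

universe u

open CategoryTheory AlgebraicGeometry

namespace Fermat.PIC

noncomputable section

variable {k : Type u} [Field k] {G : CurveCharts k} {B B' : Type u} [CommRing B] [Algebra k B]
  [CommRing B'] [Algebra k B']

/-- Shrinking the base around a point with values in a field, inside an open set. -/
lemma exists_factor_open {K : Type u} [Field K] [Algebra k K] (φ : B →ₐ[k] K)
    {U : Set (PrimeSpectrum B)} (hU : IsOpen U) (h : homPoint φ ∈ U) :
    ∃ (B' : Type u) (_ : CommRing B') (_ : Algebra k B') (ψ : B →ₐ[k] B') (χ : B' →ₐ[k] K),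
      χ.comp ψ = φ ∧ IsOpenImmersion (Spec.map (CommRingCat.ofHom ψ.toRingHom)) ∧
        ∀ q : PrimeSpectrum B', q.comap ψ.toRingHom ∈ U := by
  obtain ⟨_, ⟨f, rfl⟩, hf, hle⟩ :=
    PrimeSpectrum.isTopologicalBasis_basic_opens.exists_subset_of_mem_open h hU
  have hunit : IsUnit (φ f) := isUnit_iff_ne_zero.mpr fun h0 ↦ hf (RingHom.mem_ker.mpr h0)
  let χ : Localization.Away f →ₐ[k] K :=
    IsLocalization.liftAlgHom (M := Submonoid.powers f) (f := φ)
      (by rintro ⟨_, m, rfl⟩; rw [map_pow]; exact hunit.pow m)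
  refine ⟨Localization.Away f, inferInstance, inferInstance,
    IsScalarTower.toAlgHom k B (Localization.Away f), χ, AlgHom.ext fun x ↦ ?_, ?_, fun q ↦ ?_⟩
  · exact IsLocalization.lift_eq _ x
  · exact IsOpenImmersion.of_isLocalization f
  · refine hle fun hq ↦ ?_
    exact q.isPrime.ne_top (Ideal.eq_top_of_isUnit_mem _ hq
      (IsLocalization.Away.algebraMap_isUnit f))

namespace Datum

/-- Base changes exist along any map. -/
lemma exists_baseChange_algHom (φ : B →ₐ[k] B') (D : Datum G B) :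
    ∃ D' : Datum G B', Nonempty (BC φ D D') := by
  let := φ.toRingHom.toAlgebra
  have : IsScalarTower k B B' := IsScalarTower.of_algebraMap_eq fun x ↦ (φ.commutes x).symm
  obtain ⟨D', ⟨c⟩⟩ := D.exists_baseChange B'
  exact ⟨D', ⟨c.copy (AlgHom.ext fun _ ↦ rfl)⟩⟩

/-- A base change through an intermediate one. -/
lemma BC.nonempty_factor {B'' : Type u} [CommRing B''] [Algebra k B''] {ψ : B →ₐ[k] B'}
    {χ : B' →ₐ[k] B''} {φ : B →ₐ[k] B''} (h : χ.comp ψ = φ) {D : Datum G B} {D₁ : Datum G B'}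
    {D' : Datum G B''} (c₁ : BC ψ D D₁) (c : BC φ D D') : Nonempty (BC χ D₁ D') := by
  obtain ⟨D₂, ⟨c₂⟩⟩ := exists_baseChange_algHom χ D₁
  obtain ⟨e⟩ := BC.nonempty_equiv ((c₁.comp c₂).copy h) c
  exact ⟨c₂.congr (Equiv.refl _) e⟩

/-- Vanishing of first cohomology passes to base changes along any map. -/
lemma BC.d_surjective_of {φ : B →ₐ[k] B'} {D : Datum G B} {D' : Datum G B'} (c : BC φ D D')
    (h : Function.Surjective D.d) : Function.Surjective D'.d := by
  let := φ.toRingHom.toAlgebra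
  have : IsScalarTower k B B' := IsScalarTower.of_algebraMap_eq fun x ↦ (φ.commutes x).symm
  exact (c.copy (ψ := IsScalarTower.toAlgHom k B B') (AlgHom.ext fun _ ↦ rfl)).d_surjective h

/-- Vanishing of first cohomology passes to isomorphic data. -/
lemma Equiv.d_surjective {D D' : Datum G B} (e : Equiv D D') (h : Function.Surjective D.d) :
    Function.Surjective D'.d := fun z ↦ by
  obtain ⟨p, hp⟩ := h (e.e01.symm z)
  exact ⟨e.cochains p, by rw [e.d_cochains, hp, LinearEquiv.apply_symm_apply]⟩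

/-- The condition of a chart on the twisted datum. -/
def InChartN (N : Datum G B) (b : Fin G.genus → G.A0) : Prop :=
  Function.Surjective N.d ∧ ∃ s : N.H0, Function.Bijective (LinearMap.toSpanSingleton B N.H0 s) ∧
    N.values1 s.1.2 ⊔ Ideal.span {G.Y1 B} = ⊤ ∧ IsBasisIdeal b (N.values0 s.1.1)

/-- The chart condition on twisted data respects isomorphism. -/
lemma InChartN.congr {N N' : Datum G B} {b : Fin G.genus → G.A0} (h : N.InChartN b)
    (e : Equiv N N') : N'.InChartN b := by
  obtain ⟨hd, s, hb, h1, h0⟩ := h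
  refine ⟨e.d_surjective hd, e.H0Equiv s, ?_, ?_, ?_⟩
  · have : LinearMap.toSpanSingleton B N'.H0 (e.H0Equiv s) =
        e.H0Equiv.toLinearMap ∘ₗ LinearMap.toSpanSingleton B N.H0 s := LinearMap.ext fun a ↦ by
      simp
    rw [this, LinearMap.coe_comp]
    exact e.H0Equiv.bijective.comp hb
  · rw [show (e.H0Equiv s).1.2 = e.e1 s.1.2 from rfl, e.values1_eq]
    exact h1
  · rw [show (e.H0Equiv s).1.1 = e.e0 s.1.1 from rfl, e.values0_eq]
    exact h0

/-- If the sections over a field form a line, some section stays nonzero there. -/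
lemma BC.exists_mapH0_ne_zero {K : Type u} [Field K] [Algebra k K] [Algebra B K]
    [IsScalarTower k B K] {N : Datum G B} {N' : Datum G K}
    (cK : BC (IsScalarTower.toAlgHom k B K) N N') (hd : Function.Surjective N.d)
    (e' : K ≃ₗ[K] N'.H0) : ∃ s : N.H0, cK.mapH0 s ≠ 0 := by
  by_contra hall
  push Not at hall
  obtain ⟨e, he⟩ := cK.exists_H0Equiv hd
  have hz : ∀ w, e w = 0 := by
    intro w
    induction w using TensorProduct.induction_on with
    | zero => simp
    | add v w hv hw => rw [map_add, hv, hw, add_zero]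
    | tmul a z =>
      refine Subtype.ext ((he a z).trans ?_)
      change a • (cK.mapH0 z).1 = 0
      rw [hall z]
      simp
  obtain ⟨w, hw⟩ := e.surjective (e' 1)
  rw [hz w] at hw
  exact one_ne_zero (e'.injective (hw.symm.trans (map_zero e').symm))

/-- A section that trivialises and generates at the images of all points does so on the base
change. -/
lemma BC.toSpanSingleton_bijective_and_sup {ψ : B →ₐ[k] B'} {N : Datum G B} {N₂ : Datum G B'}
    (c₂ : BC ψ N N₂) (hd : Function.Surjective N.d) (hd₂ : Function.Surjective N₂.d) (s : N.H0)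
    (hU : ∀ q : PrimeSpectrum B', q.comap ψ.toRingHom ∈
      bijLocus (LinearMap.toSpanSingleton B N.H0 s) ∩ boundaryLocus (N.values1 s.1.2)) :
    Function.Bijective (LinearMap.toSpanSingleton B' N₂.H0 (c₂.mapH0 s)) ∧
      N₂.values1 (c₂.mapH0 s).1.2 ⊔ Ideal.span {G.Y1 B'} = ⊤ := by
  have := N.finite_H0 hd
  have := N.projective_H0 hd
  have := N₂.finite_H0 hd₂
  have := N₂.projective_H0 hd₂
  have key : ∀ q : PrimeSpectrum B',
      q ∈ bijLocus (LinearMap.toSpanSingleton B' N₂.H0 (c₂.mapH0 s)) ∧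
        (N₂.fibre q).values1 ((N₂.fibreBC q).mapH0 (c₂.mapH0 s)).1.2 ⊔
          Ideal.span {G.Y1 q.asIdeal.ResidueField} = ⊤ := fun q ↦ by
    let : Algebra B q.asIdeal.ResidueField :=
      ((algebraMap B' q.asIdeal.ResidueField).comp ψ.toRingHom).toAlgebra
    have : IsScalarTower k B q.asIdeal.ResidueField := IsScalarTower.of_algebraMap_eq fun x ↦ by
      rw [IsScalarTower.algebraMap_apply k B' q.asIdeal.ResidueField, ← ψ.commutes]
      rfl
    let cq : BC (IsScalarTower.toAlgHom k B q.asIdeal.ResidueField) N (N₂.fibre q) :=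
      (c₂.comp (N₂.fibreBC q)).copy (AlgHom.ext fun _ ↦ rfl)
    have hq : fieldPoint B q.asIdeal.ResidueField = q.comap ψ.toRingHom :=
      congrArg (PrimeSpectrum.comap ψ.toRingHom) (fieldPoint_residueField q)
    refine ⟨?_, (cq.values1_sup_eq_top_iff s).mpr (hq.symm ▸ (hU q).2)⟩
    have h := (cq.bijective_mapH0_iff_mem hd s).mpr (hq.symm ▸ (hU q).1)
    rw [← fieldPoint_residueField q, ← (N₂.fibreBC q).bijective_mapH0_iff_mem hd₂]
    exact h
  exact ⟨bijective_of_bijLocus_eq_univ _ fun q ↦ (key q).1,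
    values1_sup_eq_top_of_forall N₂ _ fun q ↦ (key q).2⟩

/-- A condition of a chart that holds on a field holds on a neighbourhood. -/
theorem exists_inChartN_nhd {K : Type u} [Field K] [Algebra k K] {φ : B →ₐ[k] K} {N : Datum G B}
    {N' : Datum G K} (c : BC φ N N') {b : Fin G.genus → G.A0} (h : N'.InChartN b) :
    ∃ (B' : Type u) (_ : CommRing B') (_ : Algebra k B') (ψ : B →ₐ[k] B') (χ : B' →ₐ[k] K),
      χ.comp ψ = φ ∧ IsOpenImmersion (Spec.map (CommRingCat.ofHom ψ.toRingHom)) ∧
        ∀ N₁ : Datum G B', BC ψ N N₁ → N₁.InChartN b := by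
  classical
  obtain ⟨hd', s', hb', h1', h0'⟩ := h
  -- first cohomology vanishes nearby
  obtain ⟨B1, _, _, ψ1, χ1, hχ1, him1, hU1⟩ := exists_factor_open φ N.isOpen_compl_support_H1
    (c.h1_eq_zero_iff_homPoint.mp (by
      rw [Datum.h1, Module.finrank_zero_iff, Submodule.Quotient.subsingleton_iff,
        LinearMap.range_eq_top]
      exact hd'))
  obtain ⟨N1, ⟨c1⟩⟩ := exists_baseChange_algHom ψ1 N
  obtain ⟨cK1⟩ := BC.nonempty_factor hχ1 c1 c
  have hd1 : Function.Surjective N1.d := c1.d_surjective_iff_forall.mpr hU1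
  -- a section near the point
  let : Algebra B1 K := χ1.toRingHom.toAlgebra
  have : IsScalarTower k B1 K := IsScalarTower.of_algebraMap_eq fun x ↦ (χ1.commutes x).symm
  let cK : BC (IsScalarTower.toAlgHom k B1 K) N1 N' := cK1.copy (AlgHom.ext fun _ ↦ rfl)
  let e' : K ≃ₗ[K] N'.H0 := LinearEquiv.ofBijective (LinearMap.toSpanSingleton K N'.H0 s') hb'
  obtain ⟨s, hs⟩ := cK.exists_mapH0_ne_zero hd1 e'
  obtain ⟨a, ha⟩ := e'.surjective (cK.mapH0 s)
  have ha0 : a ≠ 0 := fun h0 ↦ hs (by rw [← ha, h0, map_zero])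
  have hsK : cK.mapH0 s = a • s' := ha.symm
  have hbK : Function.Bijective (LinearMap.toSpanSingleton K N'.H0 (cK.mapH0 s)) := by
    have hc : ⇑(LinearMap.toSpanSingleton K N'.H0 (cK.mapH0 s)) = ⇑e' ∘ fun x ↦ x * a :=
      funext fun x ↦ by simp [hsK, e', mul_smul]
    rw [hc]
    exact e'.bijective.comp (mulRight_bijective₀ a ha0)
  have h1K : N'.values1 (cK.mapH0 s).1.2 ⊔ Ideal.span {G.Y1 K} = ⊤ := by
    rw [hsK, show (a • s').1.2 = algebraMap K (G.R1 K) a • s'.1.2 from (algebraMap_smul _ _ _).symm,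
      values1_smul, Ideal.span_singleton_eq_top.mpr ((isUnit_iff_ne_zero.mpr ha0).map _),
      Ideal.top_mul]
    exact h1'
  -- it trivialises and generates nearby
  have hf1 := N1.finite_H0 hd1
  have hp1 := N1.projective_H0 hd1
  obtain ⟨B2, _, _, ψ2, χ2, hχ2, him2, hU2⟩ := exists_factor_open χ1
    ((isOpen_bijLocus (LinearMap.toSpanSingleton B1 N1.H0 s)).inter
      (isOpen_boundaryLocus (N1.values1 s.1.2)))
    ⟨(cK.bijective_mapH0_iff_mem hd1 s).mp hbK, (cK.values1_sup_eq_top_iff s).mp h1K⟩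
  obtain ⟨N2, ⟨c2⟩⟩ := exists_baseChange_algHom ψ2 N1
  obtain ⟨cK2⟩ := BC.nonempty_factor hχ2 c2 cK1
  have hd2 : Function.Surjective N2.d := c2.d_surjective_of hd1
  obtain ⟨hb2, h12⟩ := c2.toSpanSingleton_bijective_and_sup hd1 hd2 s hU2
  -- the basis condition nearby
  obtain ⟨_, _, -, -⟩ := section_classify hd2 hb2 h12
  let : Algebra B2 K := χ2.toRingHom.toAlgebra
  have : IsScalarTower k B2 K := IsScalarTower.of_algebraMap_eq fun x ↦ (χ2.commutes x).symm
  have hbasis : fieldPoint B2 K ∈ basisLocus b (N2.values0 (c2.mapH0 s).1.1) := by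
    rw [← isBasisIdeal_map_iff]
    let cK2' : BC (IsScalarTower.toAlgHom k B2 K) N2 N' := cK2.copy (AlgHom.ext fun _ ↦ rfl)
    let cKc : BC (IsScalarTower.toAlgHom k B1 K) N1 N' := (c2.comp cK2).copy (hχ2.trans
      (AlgHom.ext fun _ ↦ rfl))
    have e1 : (N2.values0 (c2.mapH0 s).1.1).map (G.bc0 (IsScalarTower.toAlgHom k B2 K)) =
        N'.values0 (cKc.mapH0 s).1.1 := cK2'.map_values0 _
    change IsBasisIdeal b ((N2.values0 (c2.mapH0 s).1.1).map
      (G.bc0 (IsScalarTower.toAlgHom k B2 K)))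
    rw [e1]
    -- two base changes of the section differ by an automorphism
    obtain ⟨e, he0, he1, -⟩ := (BC.exists_unique_equiv cKc cK).exists
    have hmap : (cK.mapH0 s).1.1 = e.e0 (cKc.mapH0 s).1.1 := (he0 _).symm
    have := e.values0_eq (cKc.mapH0 s).1.1
    rw [← this, ← hmap, hsK,
      show (a • s').1.1 = algebraMap K (G.R0 K) a • s'.1.1 from (algebraMap_smul _ _ _).symm,
      values0_smul, Ideal.span_singleton_eq_top.mpr ((isUnit_iff_ne_zero.mpr ha0).map _),
      Ideal.top_mul]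
    exact h0'
  obtain ⟨B3, _, _, ψ3, χ3, hχ3, him3, hU3⟩ :=
    exists_factor_open χ2 (isOpen_basisLocus b (N2.values0 (c2.mapH0 s).1.1)) hbasis
  have := him1
  have := him2
  have := him3
  refine ⟨B3, inferInstance, inferInstance, (ψ3.comp ψ2).comp ψ1, χ3, ?_, ?_, fun N₁ cN₁ ↦ ?_⟩
  · rw [← hχ1, ← hχ2, ← hχ3]
    rfl
  · change IsOpenImmersion (Spec.map (CommRingCat.ofHom
      ((ψ3.toRingHom.comp ψ2.toRingHom).comp ψ1.toRingHom)))
    rw [CommRingCat.ofHom_comp, CommRingCat.ofHom_comp, Spec.map_comp, Spec.map_comp]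
    infer_instance
  obtain ⟨c3⟩ := BC.nonempty_factor (rfl : (ψ3.comp ψ2).comp ψ1 = _) c1 cN₁
  obtain ⟨c3'⟩ := BC.nonempty_factor rfl c2 c3
  let : Algebra B2 B3 := ψ3.toRingHom.toAlgebra
  have : IsScalarTower k B2 B3 := IsScalarTower.of_algebraMap_eq fun x ↦ (ψ3.commutes x).symm
  let c3'' : BC (IsScalarTower.toAlgHom k B2 B3) N2 N₁ := c3'.copy (AlgHom.ext fun _ ↦ rfl)
  refine ⟨c3''.d_surjective hd2, c3''.mapH0 (c2.mapH0 s), ?_, ?_, ?_⟩
  · rw [← c3''.bijective_mapH0_iff hd2]
    exact ((LinearEquiv.ofBijective _ hb2).baseChange B2 B3 _ _).bijective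
  · have h := congrArg (Ideal.map (G.bc1 (IsScalarTower.toAlgHom k B2 B3))) h12
    rw [Ideal.map_sup, Ideal.map_span, Set.image_singleton, G.bc1_Y1, Ideal.map_top,
      c3''.map_values1] at h
    exact h
  · have h := (isBasisIdeal_map_iff_forall b (N2.values0 (c2.mapH0 s).1.1) ψ3).mpr hU3
    change IsBasisIdeal b ((N2.values0 (c2.mapH0 s).1.1).map (G.bc0 ψ3)) at h
    rw [c3'.map_values0] at h
    exact h

end Datum

namespace ChartIdx

variable {e n : ℕ} (i : ChartIdx G e n)

/-- The twisted datum tested by a chart. -/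
def shift (D : Datum G B) : Datum G B := (D.twist (n : ℤ)).sub (i.fixed B)

/-- The shifted datum lies in the chart of the basis. -/
def InChart (D : Datum G B) : Prop := (i.shift D).InChartN i.b

/-- The twisted datum commutes with base change. -/
def shiftBC {φ : B →ₐ[k] B'} {D : Datum G B} {D' : Datum G B'} (c : Datum.BC φ D D') :
    Datum.BC φ (i.shift D) (i.shift D') :=
  ((c.twist (n : ℤ)).sub (i.fixed B)).congr (Datum.Equiv.refl _)
    (Datum.subCongr _ (i.fixed_map φ))

/-- Isomorphic data have isomorphic twisted data. -/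
def shiftEquiv {D D' : Datum G B} (f : Datum.Equiv D D') : Datum.Equiv (i.shift D) (i.shift D') :=
  (f.twist (n : ℤ)).sub _

/-- The chart condition respects isomorphism. -/
lemma InChart.congr {D D' : Datum G B} (h : i.InChart D) (f : Datum.Equiv D D') : i.InChart D' :=
  Datum.InChartN.congr h (i.shiftEquiv f)

/-- Twisting a bundle of the chart back. -/
def bundleTwist (c : BasisCoord k i.b B) :
    Datum.Equiv ((i.bundle c).twist (n : ℤ)) (Datum.pos (i.div c * i.fixed B)) :=
  (Datum.twistTwist _ (-(n : ℤ)) (n : ℤ)).trans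
    ((by rw [neg_add_cancel]; exact Datum.Equiv.refl _ :
      Datum.Equiv ((Datum.pos (i.div c * i.fixed B)).twist (-(n : ℤ) + (n : ℤ)))
        ((Datum.pos (i.div c * i.fixed B)).twist 0)).trans (Datum.twistZero _))

/-- Twisting a bundle of the chart recovers the effective divisor of its coordinates. -/
theorem nonempty_shift_bundle (c : BasisCoord k i.b B) :
    Nonempty (Datum.Equiv (i.shift (i.bundle c)) (Datum.pos (i.div c))) :=
  Datum.nonempty_sub_equiv_pos (i.bundleTwist c)

/-- The bundles of the chart satisfy its condition. -/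
theorem inChart_bundle (c : BasisCoord k i.b B)
    (hd : Function.Surjective (Datum.pos (i.div c)).d) : i.InChart (i.bundle c) := by
  obtain ⟨f⟩ := i.nonempty_shift_bundle c
  refine Datum.InChartN.congr ?_ f.symm
  have : Module.Finite B (G.R0 B ⧸ c.ideal) := c.isBasisIdeal.finite
  have : Module.Free B (G.R0 B ⧸ c.ideal) := c.isBasisIdeal.free
  have h := Datum.bijective_posSection_of_isBasisIdeal rfl i.b c.ideal c.isBasisIdeal
    ((Datum.d_surjective_iff _).mp hd)
  refine ⟨hd, Datum.posSection (i.div c), h.2,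
    Datum.values1_posSection_sup_eq_top c.ideal, ?_⟩
  rw [Datum.values0_posSection]
  exact c.isBasisIdeal

/-- Data satisfying the condition of a chart come from it. -/
theorem exists_equiv_bundle {D : Datum G B} (h : i.InChart D) :
    ∃ c : BasisCoord k i.b B, Function.Surjective (Datum.pos (i.div c)).d ∧
      Nonempty (Datum.Equiv D (i.bundle c)) := by
  obtain ⟨hd, s, hb, h1, h0⟩ := h
  obtain ⟨_, _, ⟨e1⟩, ⟨e2⟩⟩ :=
    Datum.sub_section_classify (D.twist (n : ℤ)) (i.fixed B) s hd hb h1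
  have hdiv : i.div (BasisCoord.ofIdeal h0) =
      Div.ofFinite0 (((D.twist (n : ℤ)).sub (i.fixed B)).values0 s.1.1) := by
    obtain ⟨q, hq, hqE⟩ := i.away_div (BasisCoord.ofIdeal h0)
    refine Div.eq_ofFinite0 _ _ ?_ hq hqE
    rw [i.div_I0]
    exact BasisCoord.ideal_ofIdeal h0
  refine ⟨BasisCoord.ofIdeal h0, ?_, ?_⟩
  · rw [hdiv]
    exact e1.d_surjective hd
  · refine ⟨(((Datum.twistTwist D (n : ℤ) (-(n : ℤ))).trans
      ((by rw [add_neg_cancel]; exact Datum.Equiv.refl _ :
        Datum.Equiv (D.twist ((n : ℤ) + -(n : ℤ))) (D.twist 0)).trans (Datum.twistZero _))).symm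
      ).trans ((e2.trans (Datum.posCongr (by rw [hdiv]))).twist (-(n : ℤ)))⟩

/-- The chart point of a bundle is unique. -/
theorem coord_unique {c c' : BasisCoord k i.b B}
    (hd : Function.Surjective (Datum.pos (i.div c)).d)
    (f : Datum.Equiv (i.bundle c) (i.bundle c')) : c = c' := by
  obtain ⟨f1⟩ := i.nonempty_shift_bundle c
  obtain ⟨f2⟩ := i.nonempty_shift_bundle c'
  have : Module.Finite B (G.R0 B ⧸ c.ideal) := c.isBasisIdeal.finite
  have : Module.Free B (G.R0 B ⧸ c.ideal) := c.isBasisIdeal.free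
  have h := Datum.bijective_posSection_of_isBasisIdeal rfl i.b c.ideal c.isBasisIdeal
    ((Datum.d_surjective_iff _).mp hd)
  have heq : i.div c = i.div c' :=
    Datum.eq_of_equiv_pos (fun z ↦ h.2.2 z) (f1.symm.trans ((i.shiftEquiv f).trans f2))
  apply BasisCoord.ideal_injective
  rw [← i.div_I0 c, ← i.div_I0 c', heq]

/-- The condition of a chart on a field spreads to a neighbourhood. -/
theorem exists_inChart_nhd {K : Type u} [Field K] [Algebra k K] {φ : B →ₐ[k] K} {D : Datum G B}
    {D' : Datum G K} (c : Datum.BC φ D D') (h : i.InChart D') :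
    ∃ (B' : Type u) (_ : CommRing B') (_ : Algebra k B') (ψ : B →ₐ[k] B') (χ : B' →ₐ[k] K),
      χ.comp ψ = φ ∧ IsOpenImmersion (Spec.map (CommRingCat.ofHom ψ.toRingHom)) ∧
        ∀ D₁ : Datum G B', Datum.BC ψ D D₁ → i.InChart D₁ := by
  obtain ⟨B', i1, i2, ψ, χ, h1, h2, h3⟩ := Datum.exists_inChartN_nhd (i.shiftBC c) h
  exact ⟨B', i1, i2, ψ, χ, h1, h2, fun D₁ c₁ ↦ h3 _ (i.shiftBC c₁)⟩

end ChartIdx

end

end Fermat.PIC
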