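import Mathlib

/-!
# A criterion for relatively representable open immersions

`presheafOpenImmersion_of_exists_open`, for a morphism from a scheme to a presheaf on schemes.
-/

set_option autoImplicit false

universe u

open CategoryTheory CategoryTheory.Limits AlgebraicGeometry Opposite

namespace Fermat.PIC

/-- A morphism from a scheme to a presheaf is an open immersion if for each section of the presheaf
there is an open subscheme of the base through which it is the universal such factorisation. -/
theorem presheafOpenImmersion_of_exists_open {X : Scheme.{u}} {F : Scheme.{u}ᵒᵖ ⥤ Type u}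
    (f : yoneda.obj X ⟶ F)
    (H : ∀ (T : Scheme.{u}) (a : F.obj (op T)), ∃ (V : T.Opens) (g : V.toScheme ⟶ X),
      f.app _ g = F.map V.ι.op a ∧
        ∀ (T' : Scheme.{u}) (h : T' ⟶ T) (g' : T' ⟶ X), f.app _ g' = F.map h.op a →
          ∃ h' : T' ⟶ V.toScheme, h' ≫ V.ι = h ∧ h' ≫ g = g') :
    IsOpenImmersion.presheaf f := by
  refine MorphismProperty.relative.of_exists fun T a ↦ ?_
  obtain ⟨V, g, hg, hV⟩ := H T (yonedaEquiv a)
  refine ⟨V.toScheme, yoneda.map g, V.ι, ?_, inferInstance⟩
  have happ : ∀ (T' : Scheme.{u}) (h : T' ⟶ T), a.app (op T') h = F.map h.op (yonedaEquiv a) := by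
    intro T' h
    have := ConcreteCategory.congr_hom (a.naturality h.op) (𝟙 T)
    simpa [yonedaEquiv_apply] using this
  have fapp : ∀ (T' : Scheme.{u}) (u : T' ⟶ V.toScheme),
      f.app (op T') (u ≫ g) = F.map u.op (f.app _ g) := by
    intro T' u
    exact ConcreteCategory.congr_hom (f.naturality u.op) g
  refine IsPullback.of_forall_isPullback_app fun T' ↦ ?_
  obtain ⟨T'⟩ := T'
  rw [Types.isPullback_iff]
  refine ⟨?_, fun u v h ↦ (cancel_mono V.ι).mp h.2, fun g' h hgh ↦ ?_⟩
  · ext u
    change f.app _ (u ≫ g) = a.app _ (u ≫ V.ι)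
    refine (fapp T' u).trans ((congrArg (fun z ↦ F.map u.op z) hg).trans ?_)
    rw [happ, op_comp, Functor.map_comp_apply]
  · obtain ⟨h', h1, h2⟩ := hV T' h g' (hgh.trans (happ T' h))
    exact ⟨h', h2, h1⟩

end Fermat.PIC
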