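import Fermat.Agent.PIC.Global.Functor
import Fermat.Agent.PIC.Global.OpenImm
import Fermat.Agent.PIC.Curve.BaseChange

/-!
# Representability from charts

A sheaf of rigidified line bundles covered by universal bundles over schemes, each of which is
universal over an open part of any base, is represented by the scheme glued from these.

`exists_represents`; its three hypotheses are proved in `Charts`, and S25 applies it.
-/

set_option autoImplicit false

universe u

open CategoryTheory CategoryTheory.Limits AlgebraicGeometry TopologicalSpace NeronModelInfra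
open AlgebraicGeometry.RelPicard GoodReductionJacobian Opposite

namespace Fermat.PIC

noncomputable section

variable {k : Type u} [Field k]

variable {C : Scheme.{u}} {c : C ⟶ Spec (CommRingCat.of k)}
  {ε : SchemeHomOver (𝟙 (Spec (CommRingCat.of k))) c} (P : SubPicCondition c ε)
  {ι : Type u} (X : ι → Scheme.{u}) (x : ∀ i, X i ⟶ Spec (CommRingCat.of k))
  (U : ∀ i, RigidifiedLineBundle c ε (x i)) (hU : ∀ i, P.P (x i) (U i))

/-- The charts are monomorphisms into the functor. -/
def ChartsUnique : Prop :=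
  ∀ (i : ι) (B : Type u) [CommRing B] [Algebra k B]
    (g g' : SchemeHomOver (specStr (k := k) B) (x i)),
    Nonempty (((U i).pullbackAlong g).L ≅ ((U i).pullbackAlong g').L) → g = g'

/-- A chart containing a point contains a neighbourhood of it. -/
def ChartsOpen : Prop :=
  ∀ (i : ι) {T : Scheme.{u}} (t : T ⟶ Spec (CommRingCat.of k)) (A : RigidifiedLineBundle c ε t),
    P.P t A → ∀ (K : Type u) [Field K] [Algebra k K] (s : SchemeHomOver (specStr (k := k) K) t)
      (g : SchemeHomOver (specStr (k := k) K) (x i)),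
      Nonempty (((U i).pullbackAlong g).L ≅ (A.pullbackAlong s).L) →
      ∃ V : T.Opens, Set.range s.1 ⊆ V ∧ ∃ gV : SchemeHomOver (V.ι ≫ t) (x i),
        Nonempty (((U i).pullbackAlong gV).L ≅
          (A.pullbackAlong (⟨V.ι, rfl⟩ : SchemeHomOver (V.ι ≫ t) t)).L)

/-- Every geometric point lies in a chart. -/
def ChartsCover : Prop :=
  ∀ {T : Scheme.{u}} (t : T ⟶ Spec (CommRingCat.of k)) (A : RigidifiedLineBundle c ε t),
    P.P t A → ∀ (K : Type u) [Field K] [IsAlgClosed K] [Algebra k K]
      (s : SchemeHomOver (specStr (k := k) K) t),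
      ∃ (i : ι) (g : SchemeHomOver (specStr (k := k) K) (x i)),
        Nonempty (((U i).pullbackAlong g).L ≅ (A.pullbackAlong s).L)

variable {P X x U}

/-- The morphism to the functor given by a chart. -/
def chartMap (i : ι) : yoneda.obj (X i) ⟶ subPicFunctor P :=
  yonedaEquiv.symm (PicPoint.mk (U i) (hU i) : (subPicFunctor P).obj (op (X i)))

/-- The chart map is injective on affine points. -/
lemma chartMap_injective_spec (ha : ChartsUnique X x U) (i : ι) {B : Type u} [CommRing B]
    {g g' : Spec (CommRingCat.of B) ⟶ X i}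
    (h : PicPoint.map g (PicPoint.mk (U i) (hU i)) = PicPoint.map g' (PicPoint.mk (U i) (hU i))) :
    g = g' := by
  obtain ⟨a, hs⟩ := exists_algebra_specStr (k := k) _ (g ≫ x i)
  let := a
  let G : SchemeHomOver (specStr (k := k) B) (x i) := ⟨g, hs.symm⟩
  let G' : SchemeHomOver (specStr (k := k) B) (x i) :=
    ⟨g', ((congrArg Sigma.fst h).symm).trans hs.symm⟩
  have e := (PicPoint.map_mk G (U i) (hU i)).symm.trans (h.trans (PicPoint.map_mk G' (U i) (hU i)))
  exact congrArg Subtype.val (ha i B G G' (PicPoint.mk_eq_iff.mp e))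

/-- The chart map is injective on points with values in any scheme. -/
lemma chartMap_injective (ha : ChartsUnique X x U) (i : ι) {T : Scheme.{u}} {g g' : T ⟶ X i}
    (h : PicPoint.map g (PicPoint.mk (U i) (hU i)) = PicPoint.map g' (PicPoint.mk (U i) (hU i))) :
    g = g' := by
  refine T.affineCover.hom_ext _ _ fun j ↦ ?_
  rw [← cancel_epi (T.affineCover.X j).isoSpec.inv]
  refine chartMap_injective_spec (B := Γ(T.affineCover.X j, ⊤)) hU ha i ?_
  have h' := congrArg (PicPoint.map ((T.affineCover.X j).isoSpec.inv ≫ T.affineCover.f j)) h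
  simpa only [PicPoint.map_map, Category.assoc] using h'

/-- Near every point whose class lies in a chart, the section factors through the chart. -/
lemma exists_open_factor (hb : ChartsOpen P X x U) (i : ι) {T : Scheme.{u}} (a : PicPoint P T)
    {K : Type u} [Field K] (s : Spec (CommRingCat.of K) ⟶ T)
    (g : Spec (CommRingCat.of K) ⟶ X i)
    (h : PicPoint.map g (PicPoint.mk (U i) (hU i)) = PicPoint.map s a) :
    ∃ V : T.Opens, Set.range s ⊆ V ∧ ∃ gV : V.toScheme ⟶ X i,
      PicPoint.map gV (PicPoint.mk (U i) (hU i)) = PicPoint.map V.ι a := by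
  obtain ⟨t, A, hA, rfl⟩ := PicPoint.exists_mk a
  obtain ⟨al, hs⟩ := exists_algebra_specStr _ (s ≫ t)
  let := al
  let S : SchemeHomOver (specStr (k := k) K) t := ⟨s, hs.symm⟩
  let G : SchemeHomOver (specStr (k := k) K) (x i) := ⟨g, (congrArg Sigma.fst h).trans hs.symm⟩
  have e := (PicPoint.map_mk G (U i) (hU i)).symm.trans (h.trans (PicPoint.map_mk S A hA))
  obtain ⟨V, hsV, gV, hgV⟩ := hb i t A hA K S G (PicPoint.mk_eq_iff.mp e)
  exact ⟨V, hsV, gV.1, ((PicPoint.map_mk gV (U i) (hU i)).trans (PicPoint.mk_eq_iff.mpr hgV)).trans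
    (PicPoint.map_mk (⟨V.ι, rfl⟩ : SchemeHomOver (V.ι ≫ t) t) A hA).symm⟩

/-- The charts are relatively representable open immersions. -/
theorem isOpenImmersion_chartMap (M : CurveModel c ε) (ha : ChartsUnique X x U)
    (hb : ChartsOpen P X x U) (i : ι) :
    IsOpenImmersion.presheaf (chartMap hU i) := by
  refine presheafOpenImmersion_of_exists_open _ fun T a ↦ ?_
  let u₀ : PicPoint P (X i) := PicPoint.mk (U i) (hU i)
  -- the union of the opens on which the class comes from the chart
  let J : Type u := {W : T.Opens // ∃ g : W.toScheme ⟶ X i, PicPoint.map g u₀ = PicPoint.map W.ι a}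
  let V : T.Opens := ⨆ W : J, W.1
  choose g hg using fun W : J ↦ W.2
  let inc : ∀ W : J, W.1.toScheme ⟶ V.toScheme := fun W ↦ T.homOfLE (le_iSup (fun W : J ↦ W.1) W)
  let 𝒱 : V.toScheme.OpenCover := Scheme.Cover.mkOfCovers J (fun W ↦ W.1.toScheme) inc
    (fun p ↦ by
      obtain ⟨W, hW⟩ := Opens.mem_iSup.mp p.2
      exact ⟨W, ⟨p.1, hW⟩, Subtype.ext (by simp [inc])⟩)
    (fun W ↦ inferInstanceAs (IsOpenImmersion (T.homOfLE _)))
  have hinc : ∀ W, inc W ≫ V.ι = W.1.ι := fun W ↦ T.homOfLE_ι _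
  have hcompat : ∀ W W' : J, pullback.fst (inc W) (inc W') ≫ g W =
      pullback.snd (inc W) (inc W') ≫ g W' := fun W W' ↦ chartMap_injective hU ha i (by
    rw [← PicPoint.map_map, ← PicPoint.map_map, hg, hg, PicPoint.map_map, PicPoint.map_map,
      ← hinc W, ← hinc W', pullback.condition_assoc])
  let gV : V.toScheme ⟶ X i := 𝒱.glueMorphisms g hcompat
  have hgi : ∀ W, inc W ≫ gV = g W := fun W ↦ 𝒱.ι_glueMorphisms g hcompat W
  obtain ⟨t, A, hA, rfl⟩ := PicPoint.exists_mk a
  have hgV : PicPoint.map gV u₀ = PicPoint.map V.ι (PicPoint.mk A hA) := by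
    have ht : gV ≫ x i = V.ι ≫ t := 𝒱.hom_ext _ _ fun W ↦ by
      change inc W ≫ gV ≫ x i = inc W ≫ V.ι ≫ t
      rw [← Category.assoc, hgi, ← Category.assoc, hinc]
      exact congrArg Sigma.fst (hg W)
    let G : SchemeHomOver (V.ι ≫ t) (x i) := ⟨gV, ht⟩
    let S : SchemeHomOver (V.ι ≫ t) t := ⟨V.ι, rfl⟩
    rw [PicPoint.map_mk G (U i) (hU i), PicPoint.map_mk S A hA, PicPoint.mk_eq_iff]
    refine iso_of_local (T := V.toScheme) M (((U i).pullbackAlong G)) (A.pullbackAlong S) fun p ↦ ?_
    obtain ⟨W, hW⟩ := Opens.mem_iSup.mp p.2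
    let w : SchemeHomOver (inc W ≫ V.ι ≫ t) (V.ι ≫ t) := ⟨inc W, rfl⟩
    have : IsOpenImmersion w.1 := inferInstanceAs (IsOpenImmersion (inc W))
    have e : PicPoint.map w.1 (PicPoint.mk ((U i).pullbackAlong G)
      (P.pullback_mem _ _ G _ (hU i))) =
        PicPoint.map w.1 (PicPoint.mk (A.pullbackAlong S) (P.pullback_mem _ _ S _ hA)) := by
      rw [← PicPoint.map_mk G (U i) (hU i), ← PicPoint.map_mk S A hA, PicPoint.map_map,
        PicPoint.map_map]
      change PicPoint.map (inc W ≫ gV) u₀ = PicPoint.map (inc W ≫ V.ι) _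
      rw [hgi, hinc, hg]
    rw [PicPoint.map_mk, PicPoint.map_mk, PicPoint.mk_eq_iff] at e
    exact ⟨w.1.opensRange, ⟨⟨p.1, hW⟩, Subtype.ext (by simp [w, inc])⟩,
      ⟨secIsoOfBaseChange w e.some⟩⟩
  refine ⟨V, gV, hgV, fun T' h g' hg' ↦ ?_⟩
  have hrange : Set.range h ⊆ (V : Set T) := by
    rintro _ ⟨q, rfl⟩
    obtain ⟨W, hW, gW, hgW⟩ := exists_open_factor hU hb i (PicPoint.mk A hA)
      (T'.fromSpecResidueField q ≫ h) (T'.fromSpecResidueField q ≫ g') (by
        rw [← PicPoint.map_map, ← PicPoint.map_map]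
        exact congrArg (PicPoint.map (T'.fromSpecResidueField q)) hg')
    have hWV : W ≤ V := le_iSup (fun W : J ↦ W.1) ⟨W, gW, hgW⟩
    obtain ⟨r, hr⟩ : q ∈ Set.range (T'.fromSpecResidueField q) := by simp
    exact hWV (hW ⟨r, (Scheme.Hom.comp_apply _ _ _).trans (congrArg h hr)⟩)
  refine ⟨IsOpenImmersion.lift V.ι h (hrange.trans (by simp)), IsOpenImmersion.lift_fac _ _ _,
    chartMap_injective hU ha i ?_⟩
  rw [← PicPoint.map_map, hgV, PicPoint.map_map, IsOpenImmersion.lift_fac]
  exact hg'.symm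

/-- Every point is the image of a geometric point. -/
lemma exists_geometricPoint {T : Scheme.{u}} (p : T) :
    ∃ (K : Type u) (_ : Field K) (_ : IsAlgClosed K) (s : Spec (CommRingCat.of K) ⟶ T),
      ∀ r, s r = p := by
  refine ⟨AlgebraicClosure (T.residueField p), inferInstance, inferInstance,
    Spec.map (CommRingCat.ofHom (algebraMap (T.residueField p) _)) ≫ T.fromSpecResidueField p,
    fun r ↦ ?_⟩
  exact (Scheme.Hom.comp_apply _ _ _).trans (Scheme.fromSpecResidueField_apply _ _)

/-- The charts are jointly locally surjective. -/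
theorem isLocallySurjective_chartMap (hb : ChartsOpen P X x U) (hc : ChartsCover P X x U) :
    Presheaf.IsLocallySurjective Scheme.zariskiTopology (Sigma.desc (chartMap hU)) := by
  refine ⟨fun {T} a ↦ ?_⟩
  have key : ∀ p : T, ∃ V : T.Opens, p ∈ V ∧
      Presheaf.imageSieve (Sigma.desc (chartMap hU)) a V.ι := by
    intro p
    obtain ⟨t, A, hA, rfl⟩ := PicPoint.exists_mk a
    obtain ⟨K, _, _, s, hsp⟩ := exists_geometricPoint p
    obtain ⟨al, hs⟩ := exists_algebra_specStr _ (s ≫ t)
    let := al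
    let S : SchemeHomOver (specStr (k := k) K) t := ⟨s, hs.symm⟩
    obtain ⟨i, G, e⟩ := hc t A hA K S
    obtain ⟨V, hV, gV, hgV⟩ := exists_open_factor hU hb i (PicPoint.mk A hA) s G.1
      (((PicPoint.map_mk G (U i) (hU i)).trans (PicPoint.mk_eq_iff.mpr e)).trans
        (PicPoint.map_mk S A hA).symm)
    obtain ⟨r⟩ : Nonempty (Spec (CommRingCat.of K)) := inferInstance
    refine ⟨V, ?_, (Sigma.ι (fun i ↦ yoneda.obj (X i)) i).app _ gV, ?_⟩
    · exact hsp r ▸ hV ⟨r, rfl⟩
    · refine Eq.trans ?_ hgV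
      exact ConcreteCategory.congr_hom (congr_app (Sigma.ι_desc (chartMap hU) i) (op V.toScheme)) gV
  choose V hpV hV using key
  let 𝒱 : T.OpenCover := Scheme.Cover.mkOfCovers T (fun p ↦ (V p).toScheme) (fun p ↦ (V p).ι)
    (fun p ↦ ⟨p, ⟨p, hpV p⟩, rfl⟩) (fun p ↦ inferInstanceAs (IsOpenImmersion (V p).ι))
  refine GrothendieckTopology.superset_covering _ ?_ 𝒱.mem_grothendieckTopology
  rw [Sieve.ofArrows, Sieve.generate_le_iff]
  rintro _ _ ⟨p⟩
  exact hV p

variable (M : CurveModel c ε)

include M hU in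
/-- The functor is represented by a scheme covered by the charts. -/
theorem exists_represents (hloc : IsLocalCondition P) (ha : ChartsUnique X x U)
    (hb : ChartsOpen P X x U) (hc : ChartsCover P X x U) :
    ∃ (D : RelativePic0Designation k c) (h : RepresentsRelSubPic c ε P D)
      (j : ∀ i, SchemeHomOver (x i) D.toBase),
      (∀ i, IsOpenImmersion (j i).1) ∧ (∀ p : D.P, ∃ i, p ∈ Set.range (j i).1) ∧
        (∀ i, Nonempty ((h.poincare.pullbackAlong (j i)).L ≅ (U i).L)) ∧
        (∀ Q : MorphismProperty Scheme.{u}, IsZariskiLocalAtSource Q →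
          (∀ i, Q (x i)) → Q D.toBase) := by
  let F : Sheaf Scheme.zariskiTopology.{u} (Type u) :=
    ⟨subPicFunctor P, (isSheaf_iff_isSheaf_of_type _ _).mpr (isSheaf_subPicFunctor P M hloc)⟩
  let f : ∀ i, yoneda.obj (X i) ⟶ F.1 := chartMap hU
  have hf : ∀ i, IsOpenImmersion.presheaf (f i) := isOpenImmersion_chartMap hU M ha hb
  have : Presheaf.IsLocallySurjective Scheme.zariskiTopology (Sigma.desc f) :=
    isLocallySurjective_chartMap hU hb hc
  -- glue the charts; the universal class gives the Poincaré bundle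
  let Y := (Scheme.LocalRepresentability.glueData hf).glued
  let r : (subPicFunctor P).RepresentableBy Y := Scheme.LocalRepresentability.representableBy hf
  let u₀ : PicPoint P Y := r.homEquiv (𝟙 Y)
  have hr : ∀ {T : Scheme.{u}} (g : T ⟶ Y), r.homEquiv g = PicPoint.map g u₀ := fun g ↦ by
    refine (r.homEquiv_eq g).trans ?_
    rfl
  obtain ⟨t₀, A₀, hA₀, hu₀⟩ := PicPoint.exists_mk u₀
  have hmap : ∀ {T : Scheme.{u}} {t : T ⟶ Spec (CommRingCat.of k)} (g : SchemeHomOver t t₀),
      r.homEquiv g.1 = PicPoint.mk (A₀.pullbackAlong g) (P.pullback_mem _ _ g _ hA₀) := fun g ↦ by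
    rw [hr, hu₀, PicPoint.map_mk g]
  have hcls : ∀ {T : Scheme.{u}} {t : T ⟶ Spec (CommRingCat.of k)} (A : RigidifiedLineBundle c ε t)
      (hA : P.P t A), ∃ g : SchemeHomOver t t₀,
        r.homEquiv g.1 = PicPoint.mk A hA := fun A hA ↦ by
    obtain ⟨g, hg⟩ := r.homEquiv.surjective (PicPoint.mk A hA)
    refine ⟨⟨g, ?_⟩, hg⟩
    have e := congrArg Sigma.fst ((hr g).symm.trans hg)
    rw [hu₀] at e
    exact e
  obtain ⟨z, hz⟩ := hcls _ (P.unit_mem (𝟙 (Spec (CommRingCat.of k))))
  let D : RelativePic0Designation k c := ⟨Y, t₀, z.1, z.2⟩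
  let h : RepresentsRelSubPic c ε P D :=
    { poincare := A₀
      poincare_mem := hA₀
      univ := fun t A hA ↦ by
        obtain ⟨g, hg⟩ := hcls A hA
        refine ⟨g, PicPoint.mk_eq_iff.mp ((hmap g).symm.trans hg), fun g' hg' ↦ ?_⟩
        exact Subtype.ext (r.homEquiv.injective
          (((hmap g').trans (PicPoint.mk_eq_iff.mpr hg')).trans hg.symm))
      zero := PicPoint.mk_eq_iff.mp ((hmap z).symm.trans hz) }
  -- each chart maps to the glued scheme compatibly with the universal classes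
  have hj : ∀ i, r.homEquiv (Scheme.LocalRepresentability.toGlued hf i) =
      PicPoint.mk (U i) (hU i) := fun i ↦
    (Scheme.LocalRepresentability.yonedaGluedToSheaf_app_toGlued hf).trans
      (yonedaEquiv.apply_symm_apply _)
  have hjt : ∀ i, Scheme.LocalRepresentability.toGlued hf i ≫ t₀ = x i := fun i ↦ by
    have e := congrArg Sigma.fst ((hr _).symm.trans (hj i))
    rw [hu₀] at e
    exact e
  let j : ∀ i, SchemeHomOver (x i) D.toBase := fun i ↦
    ⟨Scheme.LocalRepresentability.toGlued hf i, hjt i⟩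
  refine ⟨D, h, j, fun i ↦ inferInstanceAs
      (IsOpenImmersion (Scheme.LocalRepresentability.toGlued hf i)),
    fun p ↦ ?_, fun i ↦ PicPoint.mk_eq_iff.mp ((hmap (j i)).symm.trans (hj i)), fun Q _ hQ ↦ ?_⟩
  · exact (Scheme.LocalRepresentability.glueData hf).openCover.exists_eq p
  · exact (IsZariskiLocalAtSource.iff_of_openCover (P := Q)
      (Scheme.LocalRepresentability.glueData hf).openCover).mpr fun i ↦ (hjt i).symm ▸ hQ i

end

end Fermat.PIC
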