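import Fermat.Agent.PIC.Bridge.EpsTrivial
import Fermat.Agent.PIC.Field.Cover
import Fermat.Agent.PIC.Global.AlgEquiv
import Fermat.Agent.PIC.Global.ChartScheme
import Fermat.Agent.PIC.Global.ChartSmooth
import Fermat.Agent.PIC.Global.Classify
import Fermat.Agent.PIC.Global.Represent
import Mathlib

/-!
# The charts of the Jacobian satisfy the hypotheses of the representability theorem

They are `chartsUnique`, `chartsOpen` and `chartsCover`.
-/

set_option autoImplicit false

universe u

open CategoryTheory CategoryTheory.Limits AlgebraicGeometry NeronModelInfra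
open AlgebraicGeometry.RelPicard
open scoped TensorProduct

namespace Fermat.PIC

noncomputable section

variable {k : Type u} [Field k]

namespace ChartIdx

variable {G : CurveCharts k} {e n : ℕ} (i : ChartIdx G e n)

/-- The fixed divisor of a chart is the sum of its fixed points. -/
lemma fixed_eq (B : Type u) [CommRing B] [Algebra k B] :
    i.fixed B = ∏ j, Div.point0 ((Algebra.ofId k B).comp (i.pts j)) := by
  rw [fixed, Div.map_prod]
  exact Finset.prod_congr rfl fun j _ ↦ Div.map_point0 _ _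

/-- The bundles of a chart have degree zero when `e + g = n · deg`. -/
lemma degree_bundle [IsAlgClosed k] (he : e + G.genus = n * G.deg) {K : Type u}
    [Field K] [Algebra k K] (x : BasisCoord k i.b K) : (i.bundle x).degree = 0 := by
  have : Module.Finite K (G.R0 K ⧸ x.ideal) := x.isBasisIdeal.finite
  have : Module.Free K (G.R0 K ⧸ x.ideal) := x.isBasisIdeal.free
  have h1 : (i.div x).deg = (G.genus : ℤ) := by
    rw [div, Div.deg_ofFinite0, ← (LinearEquiv.ofBijective
      ((Ideal.Quotient.mkₐ K x.ideal).toLinearMap ∘ₗ basisMap k i.b K) x.isBasisIdeal).finrank_eq,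
      Module.finrank_fin_fun]
  have h2 : (i.fixed K).deg = (e : ℤ) := by
    rw [i.fixed_eq, Div.deg_prod_point0, Fintype.card_fin]
  rw [bundle, Datum.degree_twist, Datum.degree_pos, Div.deg_mul, h1, h2]
  have := congrArg (fun m : ℕ ↦ (m : ℤ)) he
  push_cast at this
  linarith

end ChartIdx

namespace CurveModel

variable {C : Scheme.{u}} {c : C ⟶ Spec (CommRingCat.of k)}
  {ε : SchemeHomOver (𝟙 (Spec (CommRingCat.of k))) c} (M : CurveModel c ε)
  {e n : ℕ} (i : ChartIdx M.G e n)

/-- The universal bundle over the chart ring, rigidified. -/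
def univRig : RigidifiedLineBundle c ε (specStr (k := k) i.Ring) where
  L := M.univMod i
  isInvertible := M.isInvertible_univMod i
  rigidified := (M.nonempty_rig_iff i.Ring (M.isInvertible_univMod i)).mpr
    ((M.univModEquiv i).symm.epsTrivial (i.epsTrivial_bundle _))

/-- The universal bundle of the chart, rigidified. -/
def chartRig : RigidifiedLineBundle c ε i.str := (M.univRig i).pullbackAlong i.incl

variable [IsAlgClosed k]

/-- The universal bundle of a chart is fibrewise algebraically equivalent to zero. -/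
theorem fibrewiseAlgEquivZero_chartRig (he : e + M.G.genus = n * M.G.deg) :
    (algEquivZeroCut c ε).P i.str (M.chartRig i) := by
  refine (algEquivZeroCut c ε).pullback_mem _ _ i.incl (M.univRig i) ?_
  change FibrewiseAlgEquivZero (M.univRig i)
  rw [M.fibrewiseAlgEquivZero_iff]
  intro K _ _ _ s
  obtain ⟨φ, rfl⟩ := exists_specHom s
  have hφ : ((univCoord k i.b).map φ).toHom = φ :=
    BasisCoord.toHom_unique (BasisCoord.map_toHom _)
  obtain ⟨f⟩ := M.nonempty_datAt_univMod i ((univCoord k i.b).map φ)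
  rw [hφ] at f
  exact f.degree_eq.trans (i.degree_bundle he _)

omit [IsAlgClosed k] in
/-- The charts are monomorphisms. -/
theorem chartsUnique :
    ChartsUnique (ι := ChartIdx M.G e n) (fun i ↦ i.scheme) (fun i ↦ i.str)
      (fun i ↦ M.chartRig i) := by
  intro i B _ _ g g' ⟨f⟩
  obtain ⟨x, hx, rfl⟩ := i.exists_toChart g
  obtain ⟨x', hx', rfl⟩ := i.exists_toChart g'
  obtain ⟨f1⟩ := M.nonempty_datAt_chartMod i x hx
  obtain ⟨f2⟩ := M.nonempty_datAt_chartMod i x' hx'
  have f3 : Datum.Equiv (M.datAt (M.isInvertible_chartMod i) (i.toChart x hx))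
      (M.datAt (M.isInvertible_chartMod i) (i.toChart x' hx')) := M.datOfIso B f
  cases i.coord_unique hx (f1.symm.trans (f3.trans f2))
  rfl

omit [IsAlgClosed k] in
/-- The charts are open. -/
theorem chartsOpen :
    ChartsOpen (algEquivZeroCut c ε) (ι := ChartIdx M.G e n) (fun i ↦ i.scheme) (fun i ↦ i.str)
      (fun i ↦ M.chartRig i) := by
  intro i T t A hA K _ _ s g ⟨f⟩
  obtain ⟨x, hx, rfl⟩ := i.exists_toChart g
  obtain ⟨f1⟩ := M.nonempty_datAt_chartMod i x hx
  have f3 : Datum.Equiv (M.datAt (M.isInvertible_chartMod i) (i.toChart x hx))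
      (M.datAt A.isInvertible s) := M.datOfIso K f
  have hin : i.InChart (M.datAt A.isInvertible s) :=
    (i.inChart_bundle x hx).congr i (f1.symm.trans f3)
  -- an affine neighbourhood of the point
  obtain ⟨W, hW, hpW, -⟩ := exists_isAffineOpen_mem_and_subset (X := T) (U := ⊤)
    (x := s.1 default) trivial
  obtain ⟨_, hB⟩ := exists_algebra_specStr (k := k) Γ(T, W) (hW.fromSpec ≫ t)
  let j : SchemeHomOver (specStr (k := k) Γ(T, W)) t := ⟨hW.fromSpec, hB.symm⟩
  have hs' : Set.range s.1 ⊆ Set.range hW.fromSpec := by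
    rw [hW.range_fromSpec]
    rintro _ ⟨z, rfl⟩
    rwa [Subsingleton.elim z default]
  let r := IsOpenImmersion.lift hW.fromSpec s.1 hs'
  have hr : r ≫ hW.fromSpec = s.1 := IsOpenImmersion.lift_fac _ _ hs'
  obtain ⟨φ, hφ⟩ := exists_specHom (B := Γ(T, W)) (B' := K) ⟨r, by
    rw [hB, ← Category.assoc, hr]; exact s.2⟩
  have hsj : postComp j (specHom φ) = s := by
    rw [← hφ]; exact Subtype.ext hr
  -- the chart condition holds on a smaller one, so the bundle comes from the chart there
  obtain ⟨B', _, _, ψ, χ, hχ, him, hnb⟩ := i.exists_inChart_nhd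
    ((M.bcAt A.isInvertible φ j).congr (Datum.Equiv.refl _)
      (M.datAtCongr A.isInvertible hsj)) hin
  obtain ⟨y, hy, ⟨f4⟩⟩ := i.exists_equiv_bundle (hnb _ (M.bcAt A.isInvertible ψ j))
  let j2 : SchemeHomOver (specStr (k := k) B') t := postComp j (specHom ψ)
  have : IsOpenImmersion j2.1 := by
    have : IsOpenImmersion (specHom ψ).1 := him
    exact inferInstanceAs (IsOpenImmersion ((specHom ψ).1 ≫ hW.fromSpec))
  let V : T.Opens := j2.1.opensRange
  refine ⟨V, ?_, ?_⟩
  · have hs2 : s = postComp j2 (specHom χ) := by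
      rw [← hsj, ← hχ]
      refine Subtype.ext ?_
      change Spec.map (CommRingCat.ofHom ((χ.toRingHom).comp ψ.toRingHom)) ≫ hW.fromSpec = _
      rw [CommRingCat.ofHom_comp, Spec.map_comp, Category.assoc]
      rfl
    rw [hs2]
    rintro _ ⟨z, rfl⟩
    exact ⟨(specHom χ).1 z, rfl⟩
  · -- equal data give isomorphic bundles on that neighbourhood
    let eV : SchemeHomOver (V.ι ≫ t) (specStr (k := k) B') :=
      ⟨j2.1.isoOpensRange.inv, (congrArg (fun m ↦ j2.1.isoOpensRange.inv ≫ m) j2.2.symm).trans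
        (by rw [← Category.assoc, Scheme.Hom.isoOpensRange_inv_comp])⟩
    have heV : postComp j2 eV = (⟨V.ι, rfl⟩ : SchemeHomOver (V.ι ≫ t) t) :=
      Subtype.ext (Scheme.Hom.isoOpensRange_inv_comp j2.1)
    obtain ⟨f5⟩ := M.nonempty_datAt_chartMod i y hy
    obtain ⟨θ, -⟩ := M.exists_iso_of_equiv B' ((M.isInvertible_chartMod i).pullback _)
      (A.isInvertible.pullback _) (f5.trans f4.symm)
    refine ⟨postComp (i.toChart y hy) eV, ⟨?_⟩⟩
    exact (modAtComp (M.chartMod i) (i.toChart y hy) eV).symm ≪≫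
      (Scheme.Modules.pullback (baseChangeSnd c eV)).mapIso θ ≪≫
      modAtComp A.L j2 eV ≪≫
      (Scheme.Modules.pullbackCongr (congrArg (baseChangeSnd c) heV)).app A.L

/-- The charts cover. -/
theorem chartsCover (hn : ∀ (K : Type u) [Field K] [Algebra k K] (D : Datum M.G K), D.degree = 0 →
      ∃ σ : Fin e → (M.G.A0 →ₐ[k] k),
        let N := (D.twist (n : ℤ)).sub (∏ j, Div.point0 ((Algebra.ofId k K).comp (σ j)))
        N.h1 = 0 ∧ N.h0 = 1 ∧ ∃ s : N.H0, N.values1 s.1.2 ⊔ Ideal.span {M.G.Y1 K} = ⊤)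
    (he : e + M.G.genus = n * M.G.deg) :
    ChartsCover (algEquivZeroCut c ε) (ι := ChartIdx M.G e n) (fun i ↦ i.scheme) (fun i ↦ i.str)
      (fun i ↦ M.chartRig i) := by
  classical
  intro T t A hA K _ _ _ s
  let D := M.datAt A.isInvertible s
  have hD : D.degree = 0 := (M.fibrewiseAlgEquivZero_iff A).mp hA K s
  obtain ⟨σ, hh1, hh0, s0, hs0⟩ := hn K D hD
  let N := (D.twist (n : ℤ)).sub (∏ j, Div.point0 ((Algebra.ofId k K).comp (σ j)))
  have hd : Function.Surjective N.d := (Datum.h1_eq_zero_iff _).mp hh1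
  have hne : s0 ≠ 0 := fun h0 ↦ by
    have hY : Ideal.span {M.G.Y1 K} = ⊤ := by
      rw [eq_top_iff, ← hs0, sup_le_iff]
      refine ⟨?_, le_rfl⟩
      rintro _ ⟨φ, rfl⟩
      have hz : (s0 : N.P0 × N.P1).2 = 0 := by rw [h0]; rfl
      simp [hz]
    obtain ⟨a, ha⟩ := isUnit_iff_exists_inv.mp (Ideal.span_singleton_eq_top.mp hY)
    simpa [M.G.εB_Y1] using congrArg (M.G.εB K) ha
  have hb : Function.Bijective (LinearMap.toSpanSingleton K N.H0 s0) :=
    ⟨smul_left_injective K hne, fun w ↦ (finrank_eq_one_iff_of_nonzero' s0 hne).mp hh0 w⟩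
  obtain ⟨_, _, -, ⟨e1⟩⟩ := Datum.section_classify hd hb hs0
  -- the section cuts out an effective divisor of degree `g`; choose a basis of its functions
  let I := N.values0 s0.1.1
  have hrank : Module.finrank K (M.G.R0 K ⧸ I) = M.G.genus := by
    have h1 : N.degree = (M.G.genus : ℤ) := by
      rw [Datum.degree_sub, Datum.degree_twist, hD, Div.deg_prod_point0, Fintype.card_fin]
      have := congrArg (fun m : ℕ ↦ (m : ℤ)) he
      push_cast at this
      linarith
    rw [e1.degree_eq, Datum.degree_pos, Div.deg_ofFinite0] at h1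
    exact_mod_cast h1
  have hspan : ⊤ ≤ Submodule.span K
      (Set.range fun a : M.G.A0 ↦ Ideal.Quotient.mk I ((1 : K) ⊗ₜ[k] a)) := by
    rintro q -
    obtain ⟨r, rfl⟩ := Ideal.Quotient.mk_surjective q
    induction r using TensorProduct.induction_on with
    | zero => simp
    | add v w hv hw => rw [map_add]; exact add_mem hv hw
    | tmul x a =>
      have : Ideal.Quotient.mk I (x ⊗ₜ[k] a) = x • Ideal.Quotient.mk I ((1 : K) ⊗ₜ[k] a) := by
        rw [← Ideal.Quotient.mkₐ_eq_mk K, ← map_smul, TensorProduct.smul_tmul', smul_eq_mul,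
          mul_one]
      rw [this]
      exact Submodule.smul_mem _ _ (Submodule.subset_span ⟨a, rfl⟩)
  let B0 := Module.Basis.ofSpan hspan
  have : Module.Finite K (M.G.R0 K ⧸ I) := inferInstance
  let B1 := B0.reindex (Fintype.equivFinOfCardEq (α := _)
    ((Module.finrank_eq_card_basis B0).symm.trans hrank))
  have hmem : ∀ j, ∃ a : M.G.A0, Ideal.Quotient.mk I ((1 : K) ⊗ₜ[k] a) = B1 j := fun j ↦ by
    have h := Module.Basis.ofSpan_subset hspan
    simp only [B1, Module.Basis.reindex_apply]
    exact h ⟨_, rfl⟩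
  choose b hbB using hmem
  -- the chart of these points and this basis contains the bundle
  let i : ChartIdx M.G e n := ⟨σ, b⟩
  have hbasis : IsBasisIdeal b I := by
    have : (fun w ↦ Ideal.Quotient.mk I (basisMap k b K w)) = ⇑B1.equivFun.symm := funext fun w ↦ by
      rw [B1.equivFun_symm_apply, basisMap_apply, map_sum]
      refine Finset.sum_congr rfl fun j _ ↦ ?_
      rw [← Ideal.Quotient.mkₐ_eq_mk K, map_smul, Ideal.Quotient.mkₐ_eq_mk, hbB]
    unfold IsBasisIdeal
    rw [this]
    exact B1.equivFun.symm.bijective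
  have hin : i.InChart D :=
    Datum.InChartN.congr (⟨hd, s0, hb, hs0, hbasis⟩ : N.InChartN b)
      (Datum.subCongr _ (i.fixed_eq K).symm)
  obtain ⟨x, hx, ⟨f⟩⟩ := i.exists_equiv_bundle hin
  obtain ⟨f'⟩ := M.nonempty_datAt_chartMod i x hx
  obtain ⟨θ, -⟩ := M.exists_iso_of_equiv K ((M.isInvertible_chartMod i).pullback _)
    (A.isInvertible.pullback _) (f'.trans f.symm)
  exact ⟨i, i.toChart x hx, ⟨θ⟩⟩

end CurveModel

end

end Fermat.PIC
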