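import Fermat.Agent.PIC.Bridge.RigGlue
import Fermat.Prelude.Def_AlgebraicGeometry_RelPicardAlgEquivZeroCut
import Mathlib.AlgebraicGeometry.Sites.Representability

/-!
# The functor of rigidified line bundles subject to a local condition, as a sheaf on schemes

Isomorphism classes of rigidified line bundles form a small type, so the functor takes values in
`Type u`; for a condition which is local on the base it is a sheaf for the Zariski topology.

`isSheaf_subPicFunctor` and `isLocalCondition_algEquivZeroCut`; `Represent` glues the charts in it.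
-/

set_option autoImplicit false

universe u

open CategoryTheory CategoryTheory.Limits AlgebraicGeometry TopologicalSpace NeronModelInfra
open AlgebraicGeometry.RelPicard

namespace Fermat.PIC

noncomputable section

section Small

variable {X : Scheme.{u}}

/-- An invertible sheaf is isomorphic to the structure sheaf near every point. -/
lemma exists_secIso_unit {L : X.Modules} (hL : Scheme.Modules.IsInvertible L) (x : X) :
    ∃ U : X.Opens, x ∈ U ∧ Nonempty (SecIso L (unitMod X) U) := by
  obtain ⟨U, hx, ⟨e⟩⟩ := hL.exists_trivialization x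
  exact ⟨U, hx, ⟨(SecIso.ofPullback U.ι (e ≪≫ (Scheme.Modules.pullbackUnitIso U.ι).symm)).restrict
    U.opensRange_ι.ge⟩⟩

/-- Invertible sheaves with the same transition functions are isomorphic. -/
lemma nonempty_iso_of_transition {L L' : X.Modules} (U : X → X.Opens) (hU : ∀ x, x ∈ U x)
    (r : ∀ x, SecIso L (unitMod X) (U x)) (r' : ∀ x, SecIso L' (unitMod X) (U x))
    (h : ∀ x y, (((r x).symm.restrict inf_le_left).trans
        ((r y).restrict (inf_le_right : U x ⊓ U y ≤ U y))).hom =
      (((r' x).symm.restrict inf_le_left).trans ((r' y).restrict inf_le_right)).hom) :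
    Nonempty (L ≅ L') := by
  refine ⟨(SecIso.glue (W := ⊤) U (fun x ↦ (r x).trans (r' x).symm) ?_
    fun x _ ↦ Opens.mem_iSup.mpr ⟨x, hU x⟩).toIso⟩
  intro i j V hi hj z
  have e := congrArg (fun a : SecHom (unitMod X) (unitMod X) (U i ⊓ U j) ↦
    (r' j).inv.app V hj (a.app V (le_inf hi hj) ((r i).hom.app V hi z))) (h i j)
  simp only [SecIso.trans, SecIso.restrict, SecIso.symm, SecHom.comp_app, SecHom.restrict_app,
    SecIso.hom_inv_app] at e ⊢
  exact e.symm

end Small

variable {k : Type u} [Field k] {C : Scheme.{u}} {c : C ⟶ Spec (CommRingCat.of k)}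
  {ε : SchemeHomOver (𝟙 (Spec (CommRingCat.of k))) c}
  {T : Scheme.{u}} {t : T ⟶ Spec (CommRingCat.of k)}

/-- The classes of rigidified line bundles form a small type: they are determined by transition
functions. -/
instance small_classes : Small.{u} (RigidifiedLineBundle.Classes c ε t) := by
  choose U hU hr using fun (q : RigidifiedLineBundle.Classes c ε t) ↦
    fun p ↦ exists_secIso_unit (Quotient.out q).isInvertible p
  let r := fun q p ↦ (hr q p).some
  let X := pullback c t
  let code : RigidifiedLineBundle.Classes c ε t → Σ U : X → X.Opens,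
      ∀ x y, SecHom (unitMod X) (unitMod X) (U x ⊓ U y) := fun q ↦
    ⟨U q, fun x y ↦ (((r q x).symm.restrict inf_le_left).trans
      ((r q y).restrict (inf_le_right : U q x ⊓ U q y ≤ U q y))).hom⟩
  suffices h : Function.Injective code from small_of_injective h
  intro q q' hqq
  rw [← Quotient.out_eq q, ← Quotient.out_eq q']
  refine Quotient.sound ?_
  have key :
    ∀ (U' : X → X.Opens) (_ : U q = U') (r' : ∀ x, SecIso (Quotient.out q').L (unitMod X) (U' x)),
      code q = ⟨U', fun x y ↦ (((r' x).symm.restrict inf_le_left).trans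
        ((r' y).restrict (inf_le_right : U' x ⊓ U' y ≤ U' y))).hom⟩ →
      Nonempty ((Quotient.out q).L ≅ (Quotient.out q').L) := by
    rintro U' rfl r' e
    exact nonempty_iso_of_transition (U q) (hU q) (r q) r' fun x y ↦
      congrFun (congrFun (eq_of_heq (Sigma.mk.inj_iff.mp e).2) x) y
  exact key (U q') (congrArg Sigma.fst hqq) (r q') hqq

variable (P : SubPicCondition c ε)

/-- Isomorphism classes of rigidified line bundles satisfying the condition. -/
def PicSet {T : Scheme.{u}} (t : T ⟶ Spec (CommRingCat.of k)) : Type (u + 1) :=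
  {q : RigidifiedLineBundle.Classes c ε t // ∃ A, Quotient.mk _ A = q ∧ P.P t A}

/-- The classes satisfying the condition form a small type. -/
instance small_picSet : Small.{u} (PicSet P t) :=
  small_of_injective (f := (Subtype.val : PicSet P t → _)) Subtype.val_injective

namespace PicSet

variable {P} {T' : Scheme.{u}} {t' : T' ⟶ Spec (CommRingCat.of k)}

/-- The class of a bundle satisfying the condition. -/
def mk (A : RigidifiedLineBundle c ε t) (hA : P.P t A) : PicSet P t :=
  ⟨Quotient.mk _ A, A, rfl, hA⟩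

/-- Pullback of classes. -/
def map (ψ : SchemeHomOver t' t) (q : PicSet P t) : PicSet P t' :=
  ⟨RigidifiedLineBundle.classesMap ψ q.1, by
    obtain ⟨A, hA, hP⟩ := q.2
    exact ⟨A.pullbackAlong ψ, by rw [← hA]; rfl, P.pullback_mem _ _ ψ A hP⟩⟩

end PicSet

/-- A point of the functor: a morphism to the base and a class over it. -/
def PicPoint (T : Scheme.{u}) : Type u :=
  Σ t : T ⟶ Spec (CommRingCat.of k), Shrink.{u} (PicSet P t)

namespace PicPoint

variable {P} {T' : Scheme.{u}} {t' : T' ⟶ Spec (CommRingCat.of k)}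

/-- The point given by a rigidified line bundle satisfying the condition. -/
def mk (A : RigidifiedLineBundle c ε t) (hA : P.P t A) : PicPoint P T :=
  ⟨t, equivShrink _ (PicSet.mk A hA)⟩

/-- Two bundles over the same base give the same point iff they are isomorphic. -/
lemma mk_eq_iff {A A' : RigidifiedLineBundle c ε t} {hA : P.P t A} {hA' : P.P t A'} :
    mk A hA = mk A' hA' ↔ Nonempty (A.L ≅ A'.L) := by
  constructor
  · intro h
    have h1 := (equivShrink _).injective (eq_of_heq (Sigma.mk.inj_iff.mp h).2)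
    exact Quotient.exact (congrArg Subtype.val h1)
  · intro h
    exact congrArg (fun q ↦ (⟨t, equivShrink _ q⟩ : PicPoint P T))
      (Subtype.ext (Quotient.sound h))

/-- Every point is given by a bundle. -/
lemma exists_mk (x : PicPoint P T) : ∃ (t : T ⟶ Spec (CommRingCat.of k))
    (A : RigidifiedLineBundle c ε t) (hA : P.P t A), x = mk A hA := by
  obtain ⟨t, q⟩ := x
  obtain ⟨q, rfl⟩ := (equivShrink _).surjective q
  obtain ⟨A, hA, hP⟩ := q.2
  exact ⟨t, A, hP, congrArg (fun q ↦ (⟨t, equivShrink _ q⟩ : PicPoint P T)) (Subtype.ext hA.symm)⟩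

/-- Every point over a given morphism is given by a bundle over that morphism. -/
lemma exists_mk_of_eq (x : PicPoint P T) (h : x.1 = t) :
    ∃ (A : RigidifiedLineBundle c ε t) (hA : P.P t A), x = mk A hA := by
  obtain ⟨t', A, hA, rfl⟩ := exists_mk x
  obtain rfl : t' = t := h
  exact ⟨A, hA, rfl⟩

/-- Pullback of points. -/
def map (f : T' ⟶ T) (x : PicPoint P T) : PicPoint P T' :=
  ⟨f ≫ x.1, equivShrink _ (PicSet.map (⟨f, rfl⟩ : SchemeHomOver (f ≫ x.1) x.1)
    ((equivShrink _).symm x.2))⟩

/-- Pulling back the point of a bundle gives the point of its pullback. -/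
lemma map_mk (a : SchemeHomOver t' t) (A : RigidifiedLineBundle c ε t) (hA : P.P t A) :
    map a.1 (mk A hA) = mk (A.pullbackAlong a) (P.pullback_mem _ _ a A hA) := by
  obtain ⟨f, rfl⟩ := a
  exact congrArg (fun q ↦ (⟨f ≫ t, equivShrink _ (PicSet.map ⟨f, rfl⟩ q)⟩ : PicPoint P T'))
    ((equivShrink (PicSet P t)).symm_apply_apply (PicSet.mk A hA))

/-- Pullback of points is functorial. -/
lemma map_map {T'' : Scheme.{u}} (g : T'' ⟶ T') (f : T' ⟶ T) (x : PicPoint P T) :
    map g (map f x) = map (g ≫ f) x := by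
  obtain ⟨t, A, hA, rfl⟩ := exists_mk x
  let a : SchemeHomOver (f ≫ t) t := ⟨f, rfl⟩
  let b : SchemeHomOver (g ≫ f ≫ t) (f ≫ t) := ⟨g, rfl⟩
  rw [map_mk a A hA, map_mk b]
  refine (mk_eq_iff.mpr ?_).trans (map_mk (postComp a b) A hA).symm
  exact ⟨(Scheme.Modules.pullbackComp _ _).app A.L ≪≫
    (Scheme.Modules.pullbackCongr (baseChangeSnd_comp c a b)).app A.L⟩

/-- Points agreeing on an open cover are equal. -/
lemma ext_of_cover (M : CurveModel c ε) {ι : Type*} {X : ι → Scheme.{u}} (f : ∀ i, X i ⟶ T)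
    [∀ i, IsOpenImmersion (f i)] (hcov : ∀ p : T, ∃ i, p ∈ (f i).opensRange) {z z' : PicPoint P T}
    (h : ∀ i, map (f i) z = map (f i) z') : z = z' := by
  have ht : z.1 = z'.1 := by
    choose idx hidx using hcov
    let 𝒱 : T.OpenCover := Scheme.Cover.mkOfCovers T (fun p ↦ X (idx p)) (fun p ↦ f (idx p))
      (fun p ↦ ⟨p, hidx p⟩) (fun p ↦ inferInstanceAs (IsOpenImmersion (f (idx p))))
    exact 𝒱.hom_ext _ _ fun p ↦ congrArg Sigma.fst (h (idx p))
  obtain ⟨t, B, hB, rfl⟩ := exists_mk z'
  obtain ⟨A, hA, rfl⟩ := exists_mk_of_eq (t := t) z ht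
  refine mk_eq_iff.mpr (iso_of_local M A B fun p ↦ ?_)
  obtain ⟨i, hi⟩ := hcov p
  let ψ : SchemeHomOver (f i ≫ t) t := ⟨f i, rfl⟩
  have : IsOpenImmersion ψ.1 := inferInstanceAs (IsOpenImmersion (f i))
  have e := mk_eq_iff.mp ((map_mk ψ A hA).symm.trans ((h i).trans (map_mk ψ B hB)))
  exact ⟨_, hi, ⟨secIsoOfBaseChange ψ e.some⟩⟩

end PicPoint

/-- The functor of rigidified line bundles satisfying the condition. -/
def subPicFunctor : Scheme.{u}ᵒᵖ ⥤ Type u where
  obj T := PicPoint P T.unop
  map f := TypeCat.ofHom (PicPoint.map f.unop)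
  map_id T := TypeCat.homEquiv.injective (funext fun x ↦ by
    obtain ⟨t, A, hA, rfl⟩ := PicPoint.exists_mk x
    refine (PicPoint.map_mk (⟨𝟙 _, Category.id_comp _⟩ : SchemeHomOver t t) A hA).trans ?_
    exact PicPoint.mk_eq_iff.mpr ⟨(Scheme.Modules.pullbackCongr (baseChangeSnd_id c _)).app A.L ≪≫
      (Scheme.Modules.pullbackId _).app A.L⟩)
  map_comp f g := TypeCat.homEquiv.injective (funext fun x ↦
    (PicPoint.map_map g.unop f.unop x).symm)

/-- The condition can be checked locally on the base. -/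
def IsLocalCondition : Prop :=
  ∀ {T : Scheme.{u}} (t : T ⟶ Spec (CommRingCat.of k)) (A : RigidifiedLineBundle c ε t),
    (∀ x : T, ∃ (T' : Scheme.{u}) (t' : T' ⟶ Spec (CommRingCat.of k)) (ψ : SchemeHomOver t' t),
      IsOpenImmersion ψ.1 ∧ x ∈ Set.range ψ.1 ∧ P.P t' (A.pullbackAlong ψ)) → P.P t A

/-- The functor is a sheaf for the Zariski topology. -/
theorem isSheaf_subPicFunctor (M : CurveModel c ε) (hloc : IsLocalCondition P) :
    Presieve.IsSheaf Scheme.zariskiTopology (subPicFunctor P) := by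
  rw [Precoverage.isSheaf_toGrothendieck_iff_of_isStableUnderBaseChange]
  rintro Y S hS x hx
  obtain ⟨(𝓤 : Y.OpenCover), rfl⟩ := Scheme.exists_cover_of_mem_pretopology hS
  let y : ∀ i, PicPoint P (𝓤.X i) := fun i ↦ x (𝓤.f i) (.mk i)
  have hy : ∀ i j {S : Scheme.{u}} (a : S ⟶ 𝓤.X i) (b : S ⟶ 𝓤.X j), a ≫ 𝓤.f i = b ≫ 𝓤.f j →
      PicPoint.map a (y i) = PicPoint.map b (y j) := fun i j _ a b h ↦ hx a b _ _ h
  let t : Y ⟶ Spec (CommRingCat.of k) := 𝓤.glueMorphisms (fun i ↦ (y i).1) fun i j ↦
    congrArg Sigma.fst (hy i j (pullback.fst _ _) (pullback.snd _ _) pullback.condition)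
  have ht : ∀ i, (y i).1 = 𝓤.f i ≫ t := fun i ↦ (𝓤.ι_glueMorphisms (fun i ↦ (y i).1) _ i).symm
  choose A hA hyA using fun i ↦ PicPoint.exists_mk_of_eq (y i) (ht i)
  have hcov : ∀ p : Y, ∃ i, p ∈ (𝓤.f i).opensRange := fun p ↦ 𝓤.exists_eq p
  choose idx hidx using hcov
  let ψ : ∀ p : Y, SchemeHomOver (𝓤.f (idx p) ≫ t) t := fun p ↦ ⟨𝓤.f (idx p), rfl⟩
  have : ∀ p, IsOpenImmersion (ψ p).1 := fun p ↦ 𝓤.map_prop _
  -- glue the bundles; the result satisfies the condition, being local on the base
  obtain ⟨A₀, hA₀⟩ := exists_glue M ψ (fun p ↦ ⟨p, hidx p⟩) (fun p ↦ A (idx p))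
    fun p q S s a b h ↦ by
      have e := hy (idx p) (idx q) a.1 b.1 h
      rw [hyA, hyA, PicPoint.map_mk a, PicPoint.map_mk b] at e
      exact PicPoint.mk_eq_iff.mp e
  have hP : P.P t A₀ := hloc t A₀ fun p ↦
    ⟨_, _, ψ p, inferInstance, hidx p, P.congr _ _ _ ⟨(hA₀ p).some.symm⟩ (hA _)⟩
  have hidx' : ∀ p, PicPoint.map (𝓤.f (idx p)) (PicPoint.mk A₀ hP) = y (idx p) := fun p ↦
    ((PicPoint.map_mk (ψ p) A₀ hP).trans (PicPoint.mk_eq_iff.mpr (hA₀ p))).trans (hyA _).symm
  have hall : ∀ i, PicPoint.map (𝓤.f i) (PicPoint.mk A₀ hP) = y i := by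
    intro i
    have := 𝓤.map_prop
    refine PicPoint.ext_of_cover M (fun p : Y ↦ pullback.fst (𝓤.f i) (𝓤.f (idx p))) (fun q ↦ ?_)
      fun p ↦ ?_
    · refine ⟨𝓤.f i q, ?_⟩
      rw [← SetLike.mem_coe, Scheme.Hom.coe_opensRange, Scheme.Pullback.range_fst]
      exact hidx (𝓤.f i q)
    · rw [PicPoint.map_map, pullback.condition, ← PicPoint.map_map, hidx' p]
      exact (hy _ _ _ _ pullback.condition).symm
  refine ⟨PicPoint.mk A₀ hP, ?_, fun z hz ↦ ?_⟩
  · rintro Z f ⟨i⟩
    exact hall i
  · have := 𝓤.map_prop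
    exact PicPoint.ext_of_cover M 𝓤.f (fun p ↦ ⟨idx p, hidx p⟩) fun i ↦
      (hz (𝓤.f i) (.mk i)).trans (hall i).symm

/-- Fibrewise algebraic equivalence to zero is local on the base. -/
theorem isLocalCondition_algEquivZeroCut : IsLocalCondition (algEquivZeroCut c ε) := by
  intro T t A h K _ _ s
  obtain ⟨p⟩ : Nonempty (Spec (CommRingCat.of K)) := inferInstance
  obtain ⟨T', t', ψ, hψ, hp, hP⟩ := h (s p)
  have hs : Set.range s ⊆ Set.range ψ.1 := by
    rintro _ ⟨q, rfl⟩
    rwa [Subsingleton.elim q p]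
  let s' : Spec (CommRingCat.of K) ⟶ T' := IsOpenImmersion.lift ψ.1 s hs
  have hs' : s' ≫ ψ.1 = s := IsOpenImmersion.lift_fac _ _ hs
  let e : pullback (pullback.snd c t) s ⟶ pullback (pullback.snd c t') s' :=
    pullback.lift (pullback.lift (pullback.fst (pullback.snd c t) s ≫ pullback.fst c t)
        (pullback.snd (pullback.snd c t) s ≫ s') (by
          rw [Category.assoc, pullback.condition, pullback.condition_assoc, ← hs']
          simp [Category.assoc, ψ.2]))
      (pullback.snd (pullback.snd c t) s) (pullback.lift_snd _ _ _)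
  have he : e ≫ pullback.fst (pullback.snd c t') s' ≫ baseChangeSnd c ψ =
      pullback.fst (pullback.snd c t) s := by
    apply pullback.hom_ext
    · simp only [e, baseChangeSnd, Category.assoc]
      erw [pullback.lift_fst_assoc]
      erw [pullback.lift_fst]
      erw [pullback.lift_fst_assoc]
      simp
    · simp only [e, baseChangeSnd, Category.assoc, pullback.lift_fst_assoc, pullback.lift_snd,
        pullback.lift_snd_assoc, hs']
      exact pullback.condition.symm
  refine IsAlgEquivZero.of_iso ?_ ((hP K s').pullback e (pullback.lift_snd _ _ _))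
  exact (Scheme.Modules.pullbackComp _ _).app _ ≪≫
    (Scheme.Modules.pullbackComp _ _).app A.L ≪≫
    (Scheme.Modules.pullbackCongr ((Category.assoc _ _ _).trans he)).app A.L

end

end Fermat.PIC
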