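import Fermat.Agent.PIC.Field.Cover
import Fermat.Agent.PIC.Bridge.SheafOf
import Fermat.Agent.PIC.Global.Universal
import Mathlib

/-!
# The family of sums of points of the first chart

A multiple of the polar divisor is subtracted from the sums; the base of the family is the
spectrum of a tensor power of the functions on the chart.
-/

set_option autoImplicit false
set_option linter.unusedSectionVars false

universe u

open CategoryTheory CategoryTheory.Limits AlgebraicGeometry NeronModelInfra
open scoped TensorProduct

namespace Fermat.PIC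

noncomputable section

variable {k : Type u} [Field k]

/-- An algebra with points of the first chart through which every family of as many points
factors. -/
structure PointsAlg (G : CurveCharts k) (N : ℕ) where
  /-- The algebra over which the universal family of points is defined. -/
  R : Type u
  [commRing : CommRing R]
  [algebra : Algebra k R]
  [isDomain : IsDomain R]
  [finiteType : Algebra.FiniteType k R]
  /-- The universal family of points of the first chart. -/
  pt : Fin N → (G.A0 →ₐ[k] R)
  /-- Every family of `N` points factors through the universal one. -/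
  exists_lift : ∀ (B : Type u) [CommRing B] [Algebra k B] (σ : Fin N → (G.A0 →ₐ[k] B)),
    ∃ φ : R →ₐ[k] B, ∀ j, φ.comp (pt j) = σ j

attribute [instance] PointsAlg.commRing PointsAlg.algebra PointsAlg.isDomain PointsAlg.finiteType

variable [IsAlgClosed k] (G : CurveCharts k)

/-- A universal family of `N` points of the first chart exists, over a tensor power of its
functions. -/
theorem CurveCharts.nonempty_pointsAlg (N : ℕ) : Nonempty (PointsAlg G N) := by
  induction N with
  | zero =>
    exact ⟨{ R := k, pt := Fin.elim0,
             exists_lift := fun B _ _ σ ↦ ⟨Algebra.ofId k B, fun j ↦ j.elim0⟩ }⟩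
  | succ N ih =>
    obtain ⟨P⟩ := ih
    have : IsDomain (G.A0 ⊗[k] P.R) := isDomain_tensor
    have : Algebra.FiniteType k (G.A0 ⊗[k] P.R) :=
      Algebra.FiniteType.trans (S := G.A0) (finiteType_of_aeval_finite G.finite0) inferInstance
    exact ⟨{ R := G.A0 ⊗[k] P.R
             pt := Fin.cons Algebra.TensorProduct.includeLeft
               fun j ↦ Algebra.TensorProduct.includeRight.comp (P.pt j)
             exists_lift := fun B _ _ σ ↦ by
               obtain ⟨φ, hφ⟩ := P.exists_lift B (Fin.tail σ)
               refine ⟨Algebra.TensorProduct.lift (σ 0) φ fun _ _ ↦ Commute.all _ _, fun j ↦ ?_⟩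
               induction j using Fin.cases with
               | zero => ext a; simp
               | succ j => ext a; simpa [Fin.tail] using AlgHom.congr_fun (hφ j) a }⟩

/-- A choice of tensor power. -/
def CurveCharts.pointsAlg (N : ℕ) : PointsAlg G N :=
  (G.nonempty_pointsAlg N).some

variable {G}

/-- The bundle of a family of points minus a multiple of the polar divisor. -/
def CurveCharts.pointsBundle {B : Type u} [CommRing B] [Algebra k B] {N : ℕ} (n : ℕ)
    (σ : Fin N → (G.A0 →ₐ[k] B)) : Datum G B :=
  (Datum.pos (∏ j, Div.point0 (σ j))).twist (-(n : ℤ))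

variable {B B' : Type u} [CommRing B] [Algebra k B] [CommRing B'] [Algebra k B'] {N : ℕ} {n : ℕ}

/-- The bundles of families of points commute with base change. -/
def CurveCharts.pointsBundleBC (φ : B →ₐ[k] B') (σ : Fin N → (G.A0 →ₐ[k] B))
    (σ' : Fin N → (G.A0 →ₐ[k] B')) (h : ∀ j, φ.comp (σ j) = σ' j) :
    Datum.BC φ (CurveCharts.pointsBundle n σ) (CurveCharts.pointsBundle n σ') :=
  ((Datum.BC.pos φ (∏ j, Div.point0 (σ j))).congr (Datum.Equiv.refl _)
    (Datum.posCongr (by simp only [Div.map_prod, Div.map_point0, h]))).twist (-(n : ℤ))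

/-- The bundle of a sum of points is trivial at the base point. -/
lemma CurveCharts.epsTrivial_pointsBundle (σ : Fin N → (G.A0 →ₐ[k] B)) :
    (CurveCharts.pointsBundle n σ).EpsTrivial :=
  Datum.epsTrivial_twist (Div.away_prod _ _ fun _ _ ↦ Div.away_point0 _).epsTrivial _

/-- The bundle of `N` points twisted by `-n` has degree `N - n · deg`. -/
lemma CurveCharts.degree_pointsBundle {K : Type u} [Field K] [Algebra k K]
    (σ : Fin N → (G.A0 →ₐ[k] K)) :
    (CurveCharts.pointsBundle n σ).degree = (N : ℤ) - n * G.deg := by
  rw [CurveCharts.pointsBundle, Datum.degree_twist, Datum.degree_pos, Div.deg_prod_point0,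
    Fintype.card_fin]
  ring

/-- A datum whose twist is the bundle of a sum of points is a points bundle. -/
theorem CurveCharts.nonempty_equiv_pointsBundle (D : Datum G B) (σ : Fin N → (G.A0 →ₐ[k] B))
    (e : Datum.Equiv (D.twist n) (Datum.pos (∏ j, Div.point0 (σ j)))) :
    Nonempty (Datum.Equiv D (CurveCharts.pointsBundle n σ)) := by
  have hn : ((n : ℤ) + -(n : ℤ)) = 0 := by omega
  have e₁ : Datum.Equiv ((D.twist n).twist (-(n : ℤ))) (D.twist 0) := hn ▸ D.twistTwist n (-n)
  exact ⟨((e₁.trans D.twistZero).symm.trans (e.twist (-(n : ℤ))))⟩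

/-- The spectrum of a domain over an algebraically closed field is geometrically integral. -/
theorem geometricallyIntegral_specStr (A : Type u) [CommRing A] [Algebra k A] [IsDomain A] :
    GeometricallyIntegral (specStr (k := k) A) := by
  rw [geometricallyIntegral_iff, geometrically_iff_of_commRing]
  intro K _ _ Y fst snd h
  have : IsDomain (A ⊗[k] K) := isDomain_tensor
  exact IsIntegral.of_isIso ((pullbackSpecIso k A K).inv ≫ h.isoPullback.inv)

/-- The spectrum of an algebra of finite type is locally of finite type. -/
theorem locallyOfFiniteType_specStr (A : Type u) [CommRing A] [Algebra k A]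
    [Algebra.FiniteType k A] : LocallyOfFiniteType (specStr (k := k) A) :=
  HasRingHomProperty.Spec_iff.mpr (RingHom.finiteType_algebraMap.mpr ‹_›)

namespace CurveModel

variable {C : Scheme.{u}} {c : C ⟶ Spec (CommRingCat.of k)}
  {ε : SchemeHomOver (𝟙 (Spec (CommRingCat.of k))) c} (M : CurveModel c ε) (n N : ℕ)

/-- The line bundle over the family of points. -/
def pointsMod : (pullback c (specStr (k := k) (M.G.pointsAlg N).R)).Modules :=
  (M.exists_sheaf_of_datum (CurveCharts.pointsBundle n (M.G.pointsAlg N).pt)).choose

/-- The universal sheaf of sums of points is invertible. -/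
lemma isInvertible_pointsMod : Scheme.Modules.IsInvertible (M.pointsMod n N) :=
  (M.exists_sheaf_of_datum (CurveCharts.pointsBundle n (M.G.pointsAlg N).pt)).choose_spec.choose

/-- The datum of the family at a point is the bundle of the points. -/
theorem nonempty_datAt_pointsMod (φ : (M.G.pointsAlg N).R →ₐ[k] B')
    (σ : Fin N → (M.G.A0 →ₐ[k] B')) (h : ∀ j, φ.comp ((M.G.pointsAlg N).pt j) = σ j) :
    Nonempty (Datum.Equiv (M.datAt (M.isInvertible_pointsMod n N) (specHom φ))
      (CurveCharts.pointsBundle n σ)) := by
  obtain ⟨e⟩ := (M.exists_sheaf_of_datum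
    (CurveCharts.pointsBundle n (M.G.pointsAlg N).pt)).choose_spec.choose_spec
  exact Datum.BC.nonempty_equiv
    ((M.bcOf (M.isInvertible_pointsMod n N) φ).congr e (Datum.Equiv.refl _))
    (CurveCharts.pointsBundleBC φ _ σ h)

/-- Every family of points is a point of the base of the family. -/
theorem exists_datAt_pointsMod (σ : Fin N → (M.G.A0 →ₐ[k] B')) :
    ∃ φ : (M.G.pointsAlg N).R →ₐ[k] B',
      Nonempty (Datum.Equiv (M.datAt (M.isInvertible_pointsMod n N) (specHom φ))
        (CurveCharts.pointsBundle n σ)) := by
  obtain ⟨φ, hφ⟩ := (M.G.pointsAlg N).exists_lift B' σ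
  exact ⟨φ, M.nonempty_datAt_pointsMod n N φ σ hφ⟩

end CurveModel

end

end Fermat.PIC
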