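import Mathlib

/-!
# Properties inherited by the image of a surjective morphism

Geometric connectedness and quasi-compactness pass to surjective images.
-/

set_option autoImplicit false

universe u

open CategoryTheory CategoryTheory.Limits AlgebraicGeometry

namespace Fermat.PIC

/-- Geometric connectedness passes to surjective images. -/
theorem geometricallyConnected_of_surjective {S X Y : Scheme.{u}} (h : S ⟶ X) [Surjective h]
    (f : X ⟶ Y) [GeometricallyConnected (h ≫ f)] : GeometricallyConnected f := by
  refine ⟨geometrically_iff_of_isClosedUnderIsomorphisms.mpr fun K _ x ↦ ?_⟩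
  have h1 : ConnectedSpace (pullback (h ≫ f) x : Scheme.{u}) :=
    GeometricallyConnected.geometrically_connectedSpace (f := h ≫ f) _ _ _
      (IsPullback.of_hasPullback (h ≫ f) x)
  let g : pullback (h ≫ f) x ⟶ pullback f x :=
    pullback.map _ _ _ _ h (𝟙 _) (𝟙 _) (by simp) (by simp)
  have hP : IsPullback (pullback.fst (h ≫ f) x) g h (pullback.fst f x) := by
    refine IsPullback.of_bot ?_ ?_ (IsPullback.of_hasPullback f x)
    · rw [show g ≫ pullback.snd f x = pullback.snd (h ≫ f) x ≫ 𝟙 _ from pullback.lift_snd _ _ _,
        Category.comp_id]
      exact IsPullback.of_hasPullback (h ≫ f) x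
    · exact (pullback.lift_fst _ _ _).symm
  have : Surjective g := MorphismProperty.of_isPullback hP ‹Surjective h›
  exact g.surjective.connectedSpace g.continuous

end Fermat.PIC
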