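import Mathlib

/-!
# The valuative criterion with algebraically closed fraction fields

The existence part of the valuative criterion only needs valuation rings with algebraically closed
fraction fields.
-/

set_option autoImplicit false

universe u

open CategoryTheory CategoryTheory.Limits AlgebraicGeometry IsLocalRing

namespace Fermat.PIC

noncomputable section

/-- Lifts exist over valuation rings with algebraically closed fraction fields. -/
def GeomExistence {X Y : Scheme.{u}} (f : X ⟶ Y) : Prop :=
  ∀ (R K : Type u) [CommRing R] [IsDomain R] [ValuationRing R] [Field K] [IsAlgClosed K]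
    [Algebra R K] [IsFractionRing R K] (i₁ : Spec (CommRingCat.of K) ⟶ X)
    (i₂ : Spec (CommRingCat.of R) ⟶ Y),
    i₁ ≫ f = Spec.map (CommRingCat.ofHom (algebraMap R K)) ≫ i₂ →
      ∃ l : Spec (CommRingCat.of R) ⟶ X,
        Spec.map (CommRingCat.ofHom (algebraMap R K)) ≫ l = i₁ ∧ l ≫ f = i₂

/-- Geometric existence in the valuative criterion makes a map specialising. -/
lemma GeomExistence.specializingMap {X Y : Scheme.{u}} {f : X ⟶ Y} (H : GeomExistence f) :
    SpecializingMap f := by
  intro x' y h
  let L := AlgebraicClosure (X.residueField x')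
  let κL : X.residueField x' ⟶ CommRingCat.of L :=
    CommRingCat.ofHom (algebraMap (X.residueField x') L)
  let φ : Y.presheaf.stalk y ⟶ CommRingCat.of L :=
    Y.presheaf.stalkSpecializes h ≫ f.stalkMap x' ≫ X.residue x' ≫ κL
  obtain ⟨A, hA, hA_local⟩ := exists_factor_valuationRing φ.hom
  let φA : Y.presheaf.stalk y ⟶ CommRingCat.of A := CommRingCat.ofHom (φ.hom.codRestrict _ hA)
  have w : (Spec.map κL ≫ X.fromSpecResidueField x') ≫ f =
      Spec.map (CommRingCat.ofHom (algebraMap A L)) ≫ Spec.map φA ≫ Y.fromSpecStalk y := by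
    rw [Category.assoc, Scheme.fromSpecResidueField, Category.assoc,
      ← Scheme.SpecMap_stalkMap_fromSpecStalk,
      ← Scheme.SpecMap_stalkSpecializes_fromSpecStalk h]
    simp_rw [← Spec.map_comp_assoc]
    rfl
  obtain ⟨l, hl₁, hl₂⟩ := H A L _ _ w
  refine ⟨l (closedPoint A), ?_, ?_⟩
  · have hx : x' = (Spec.map κL ≫ X.fromSpecResidueField x') (closedPoint L) := by
      rw [Scheme.Hom.comp_apply]
      exact (Scheme.fromSpecResidueField_apply x' _).symm
    refine (specializes_of_eq hx).trans ?_
    rw [← hl₁, Scheme.Hom.comp_apply]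
    exact (specializes_closedPoint _).map l.continuous
  · rw [← Scheme.Hom.comp_apply, hl₂]
    simp only [Scheme.Hom.comp_base, TopCat.coe_comp, Function.comp_apply]
    have : Spec.map φA (closedPoint A) = closedPoint (Y.presheaf.stalk y) :=
      comap_closedPoint (S := A) (φ.hom.codRestrict A.toSubring hA)
    rw [this, Y.fromSpecStalk_closedPoint]

/-- Geometric existence is stable under base change. -/
lemma GeomExistence.of_isPullback {X Y X' Y' : Scheme.{u}} {f : X ⟶ Y} {g : Y' ⟶ Y} {f' : X' ⟶ Y'}
    {g' : X' ⟶ X} (hP : IsPullback g' f' f g) (hf : GeomExistence f) : GeomExistence f' := by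
  intro R K _ _ _ _ _ _ _ i₁ i₂ w
  obtain ⟨l₀, h1, h2⟩ := hf R K (i₁ ≫ g') (i₂ ≫ g)
    (by rw [Category.assoc, hP.w, reassoc_of% w])
  refine ⟨hP.lift l₀ i₂ h2, ?_, hP.lift_snd _ _ _⟩
  apply hP.hom_ext
  · rw [Category.assoc, hP.lift_fst, h1]
  · rw [Category.assoc, hP.lift_snd, w]

/-- A quasi-compact morphism with lifts over valuation rings with algebraically closed fraction
fields is universally closed. -/
theorem universallyClosed_of_geomExistence {X Y : Scheme.{u}} (f : X ⟶ Y) [QuasiCompact f]
    (hf : GeomExistence f) : UniversallyClosed f := by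
  rw [universallyClosed_eq_universallySpecializing]
  exact ⟨fun _ _ _ _ _ hP ↦ (hf.of_isPullback hP.flip).specializingMap, ‹_›⟩

end

end Fermat.PIC
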